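/-
Programme DS (S48, Deligne–Serre), chapter Image, brick BOUNDED-IMAGE (helper94).  Mathlib only.

**The abstract Klein count.**  A finite group `P` acts on a finite set `X` in such a way that every
non-trivial element has exactly two fixed points (think: a finite subgroup of `PGL₂(K)` of order
prime to the characteristic acting on `ℙ¹(K)`).  Then either two distinct points of `X` have a
common stabiliser of index `≤ 2`, or `#P ≤ 60`.

(The class equation `Σ (1 - 1/e_i) = 2 - 2/n` over the orbits with non-trivial stabilisers; the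
solutions are `(n, n)`, `(2, 2, n/2)`, `(2, 3, 3)`, `(2, 3, 4)`, `(2, 3, 5)`.)
-/
import Mathlib

set_option autoImplicit false
set_option linter.style.haveILetI false

namespace Fermat.Agent.DS.Image.KleinAbs94

/-! ### Arithmetic -/

theorem arith_aux2 {n k1 k2 k3 e3 : ℕ} (h1 : 2 * k1 = n) (h2 : 3 * k2 = n) (h3 : e3 * k3 = n)
    (he3 : 2 ≤ e3) (hs : k1 + k2 + k3 = n + 2) : n ≤ 60 := by
  have h6 : 6 * k3 = n + 12 := by omega
  have h7 : 6 * n = e3 * (n + 12) := by
    calc 6 * n = 6 * (e3 * k3) := by rw [h3]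
      _ = e3 * (6 * k3) := by ring
      _ = e3 * (n + 12) := by rw [h6]
  have he : e3 ≤ 5 := by
    by_contra hcon
    rw [not_le] at hcon
    have : 6 * (n + 12) ≤ e3 * (n + 12) := Nat.mul_le_mul_right _ hcon
    omega
  interval_cases e3 <;> omega

theorem arith_aux1 {n k1 k2 k3 e2 e3 : ℕ} (h1 : 2 * k1 = n) (h2 : e2 * k2 = n) (h3 : e3 * k3 = n)
    (he2 : 2 ≤ e2) (he3 : 2 ≤ e3) (hs : k1 + k2 + k3 = n + 2) : k2 = 2 ∨ k3 = 2 ∨ n ≤ 60 := by
  rcases Nat.lt_or_ge e2 4 with h | h
  · interval_cases e2
    · right; left; omega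
    · right; right; exact arith_aux2 h1 h2 h3 he3 hs
  · rcases Nat.lt_or_ge e3 4 with h' | h'
    · interval_cases e3
      · left; omega
      · right; right
        exact arith_aux2 h1 h3 h2 he2 (by omega)
    · exfalso
      have a2 : 4 * k2 ≤ e2 * k2 := Nat.mul_le_mul_right _ h
      have a3 : 4 * k3 ≤ e3 * k3 := Nat.mul_le_mul_right _ h'
      omega

theorem arith_main {n k1 k2 k3 e1 e2 e3 : ℕ} (h1 : e1 * k1 = n) (h2 : e2 * k2 = n)
    (h3 : e3 * k3 = n) (he1 : 2 ≤ e1) (he2 : 2 ≤ e2) (he3 : 2 ≤ e3)
    (hs : k1 + k2 + k3 = n + 2) : k1 = 2 ∨ k2 = 2 ∨ k3 = 2 ∨ n ≤ 60 := by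
  by_cases c1 : e1 = 2
  · subst c1
    rcases arith_aux1 h1 h2 h3 he2 he3 hs with h | h | h
    · exact Or.inr (Or.inl h)
    · exact Or.inr (Or.inr (Or.inl h))
    · exact Or.inr (Or.inr (Or.inr h))
  by_cases c2 : e2 = 2
  · subst c2
    rcases arith_aux1 h2 h1 h3 he1 he3 (by omega) with h | h | h
    · exact Or.inl h
    · exact Or.inr (Or.inr (Or.inl h))
    · exact Or.inr (Or.inr (Or.inr h))
  by_cases c3 : e3 = 2
  · subst c3
    rcases arith_aux1 h3 h1 h2 he1 he2 (by omega) with h | h | h
    · exact Or.inl h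
    · exact Or.inr (Or.inl h)
    · exact Or.inr (Or.inr (Or.inr h))
  exfalso
  have a1 : 3 * k1 ≤ e1 * k1 := Nat.mul_le_mul_right _ (by omega)
  have a2 : 3 * k2 ≤ e2 * k2 := Nat.mul_le_mul_right _ (by omega)
  have a3 : 3 * k3 ≤ e3 * k3 := Nat.mul_le_mul_right _ (by omega)
  omega

/-! ### The count -/

section Klein

open MulAction

variable {P X : Type*} [Group P] [MulAction P X]

/-- the combinatorial core: orbit data `(e ω, k ω)` with `e ω * k ω = n` and
`Σ (n - k ω) = 2 (n - 1)`. -/
theorem orbit_data_cases {Ω : Type*} [Fintype Ω] [DecidableEq Ω] (n : ℕ) (hn : 2 ≤ n)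
    (e k : Ω → ℕ) (hek : ∀ ω, e ω * k ω = n)
    (hsum : ∑ ω : Ω, (n - k ω) = 2 * n - 2) :
    (∃ a b : Ω, a ≠ b ∧ k a = 1 ∧ k b = 1) ∨ (∃ a : Ω, k a = 2) ∨ n ≤ 60 := by
  classical
  have he1 : ∀ ω, 1 ≤ e ω := fun ω => by
    rcases Nat.eq_zero_or_pos (e ω) with h | h
    · have := hek ω; rw [h, zero_mul] at this; omega
    · exact h
  have hk1 : ∀ ω, 1 ≤ k ω := fun ω => by
    rcases Nat.eq_zero_or_pos (k ω) with h | h
    · have := hek ω; rw [h, mul_zero] at this; omega
    · exact h
  have hkn : ∀ ω, k ω ≤ n := fun ω => by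
    have := hek ω
    calc k ω = 1 * k ω := (one_mul _).symm
      _ ≤ e ω * k ω := Nat.mul_le_mul_right _ (he1 ω)
      _ = n := this
  set T : Finset Ω := Finset.univ.filter fun ω => 2 ≤ e ω with hT
  -- outside `T` the terms vanish
  have hout : ∀ ω, ω ∉ T → n - k ω = 0 := by
    intro ω hω
    have h1 : e ω = 1 := by
      have : ¬ 2 ≤ e ω := fun h => hω (by rw [hT]; simp [h])
      have := he1 ω
      omega
    have := hek ω
    rw [h1, one_mul] at this
    omega
  have hsumT : ∑ ω ∈ T, (n - k ω) = 2 * n - 2 := by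
    rw [← hsum]
    exact Finset.sum_subset (Finset.subset_univ T) fun ω _ hω => hout ω hω
  -- bounds on the terms inside `T`
  have hin : ∀ ω ∈ T, 2 * k ω ≤ n := by
    intro ω hω
    have h2 : 2 ≤ e ω := by rw [hT] at hω; simpa using hω
    calc 2 * k ω ≤ e ω * k ω := Nat.mul_le_mul_right _ h2
      _ = n := hek ω
  have hlow : T.card * n ≤ 2 * ∑ ω ∈ T, (n - k ω) := by
    rw [Finset.mul_sum, Finset.card_eq_sum_ones, Finset.sum_mul]
    refine Finset.sum_le_sum fun ω hω => ?_
    have := hin ω hω
    omega
  have hupp : ∑ ω ∈ T, (n - k ω) ≤ T.card * (n - 1) := by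
    rw [Finset.card_eq_sum_ones, Finset.sum_mul]
    refine Finset.sum_le_sum fun ω _ => ?_
    have := hk1 ω
    omega
  rw [hsumT] at hlow hupp
  have hcard_le : T.card ≤ 3 := by
    by_contra hcon
    rw [not_le] at hcon
    have : 4 * n ≤ T.card * n := Nat.mul_le_mul_right _ hcon
    omega
  have hcard_ge : 2 ≤ T.card := by
    by_contra hcon
    rw [not_le] at hcon
    have : T.card * (n - 1) ≤ 1 * (n - 1) := Nat.mul_le_mul_right _ (by omega)
    omega
  rcases Nat.lt_or_ge T.card 3 with h3 | h3
  · -- two special orbits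
    have h2 : T.card = 2 := by omega
    obtain ⟨a, b, hab, hTab⟩ := Finset.card_eq_two.mp h2
    left
    refine ⟨a, b, hab, ?_⟩
    rw [hTab, Finset.sum_pair hab] at hsumT
    have := hkn a; have := hkn b; have := hk1 a; have := hk1 b
    omega
  · -- three special orbits
    have h3' : T.card = 3 := by omega
    obtain ⟨a, b, c, hab, hac, hbc, hTabc⟩ := Finset.card_eq_three.mp h3'
    have ha : a ∈ T := by rw [hTabc]; simp
    have hb : b ∈ T := by rw [hTabc]; simp
    have hc : c ∈ T := by rw [hTabc]; simp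
    have hea : 2 ≤ e a := by rw [hT] at ha; simpa using ha
    have heb : 2 ≤ e b := by rw [hT] at hb; simpa using hb
    have hec : 2 ≤ e c := by rw [hT] at hc; simpa using hc
    rw [hTabc, Finset.sum_insert (by simp [hab, hac]), Finset.sum_pair hbc] at hsumT
    have := hkn a; have := hkn b; have := hkn c
    have hs : k a + k b + k c = n + 2 := by omega
    right
    rcases arith_main (hek a) (hek b) (hek c) hea heb hec hs with h | h | h | h
    · exact Or.inl ⟨a, h⟩
    · exact Or.inl ⟨b, h⟩
    · exact Or.inl ⟨c, h⟩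
    · exact Or.inr h

/-- **The abstract Klein count.**  If every non-trivial element of the finite group `P` has exactly
two fixed points on the finite set `X`, then two distinct points have a common stabiliser of index
`≤ 2`, or `#P ≤ 60`. -/
theorem klein [Finite P] [Finite X]
    (hfix : ∀ g : P, g ≠ 1 → (fixedBy X g).ncard = 2) :
    (∃ x x' : X, x ≠ x' ∧ Nat.card P ≤ 2 * Nat.card ↥(stabilizer P x ⊓ stabilizer P x')) ∨
      Nat.card P ≤ 60 := by
  classical
  haveI : Fintype P := Fintype.ofFinite P
  haveI : Fintype X := Fintype.ofFinite X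
  set n := Fintype.card P with hn
  have hnc : Nat.card P = n := Nat.card_eq_fintype_card
  rcases Nat.lt_or_ge n 2 with hn2 | hn2
  · right; rw [hnc]; omega
  -- Burnside
  have hB := sum_card_fixedBy_eq_card_orbits_mul_card_group P X
  have hB' : ∑ g : P, Fintype.card (fixedBy X g) = Fintype.card X + 2 * (n - 1) := by
    rw [← Finset.add_sum_erase Finset.univ _ (Finset.mem_univ (1 : P))]
    congr 1
    · have : fixedBy X (1 : P) = Set.univ := by
        ext x; simp
      rw [Fintype.card_congr (Equiv.setCongr this), Fintype.card_congr (Equiv.Set.univ X)]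
    · rw [Finset.sum_congr rfl (g := fun _ => 2), Finset.sum_const,
        Finset.card_erase_of_mem (Finset.mem_univ _), Finset.card_univ, smul_eq_mul, mul_comm]
      intro g hg
      have := hfix g (Finset.ne_of_mem_erase hg)
      rw [← Nat.card_coe_set_eq, Nat.card_eq_fintype_card] at this
      exact this
  -- class formula
  have hC := card_eq_sum_card_group_div_card_stabilizer P X
  set e : orbitRel.Quotient P X → ℕ := fun ω => Fintype.card (stabilizer P ω.out) with he
  set k : orbitRel.Quotient P X → ℕ := fun ω => n / e ω with hk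
  have hdvd : ∀ ω, e ω ∣ n := fun ω => by
    have := Subgroup.card_subgroup_dvd_card (stabilizer P (Quotient.out ω))
    rwa [Nat.card_eq_fintype_card, Nat.card_eq_fintype_card] at this
  have hek : ∀ ω, e ω * k ω = n := fun ω => Nat.mul_div_cancel' (hdvd ω)
  have hkn : ∀ ω, k ω ≤ n := fun ω => Nat.div_le_self _ _
  have hsum : ∑ ω : orbitRel.Quotient P X, (n - k ω) = 2 * n - 2 := by
    rw [Finset.sum_tsub_distrib _ (fun ω _ => hkn ω), Finset.sum_const, Finset.card_univ,
      smul_eq_mul, ← hC, ← hB, hB']
    omega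
  rcases orbit_data_cases n hn2 e k hek hsum with ⟨a, b, hab, ha, hb⟩ | ⟨a, ha⟩ | h
  · -- two fixed points
    left
    refine ⟨a.out, b.out, fun h => hab ?_, ?_⟩
    · rw [← Quotient.out_eq' a, ← Quotient.out_eq' b, h]
    · have hea : e a = n := by have := hek a; rw [ha, mul_one] at this; exact this
      have heb : e b = n := by have := hek b; rw [hb, mul_one] at this; exact this
      have hta : stabilizer P a.out = ⊤ := by
        apply Subgroup.eq_top_of_card_eq
        rw [Nat.card_eq_fintype_card, Nat.card_eq_fintype_card]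
        exact hea
      have htb : stabilizer P b.out = ⊤ := by
        apply Subgroup.eq_top_of_card_eq
        rw [Nat.card_eq_fintype_card, Nat.card_eq_fintype_card]
        exact heb
      rw [hta, htb, inf_idem, Subgroup.card_top, hnc]
      omega
  · -- an orbit with two elements
    left
    set x := a.out with hx
    have hea : 2 * e a = n := by have := hek a; rw [ha] at this; omega
    have horb : Fintype.card (orbit P x) * e a = n :=
      card_orbit_mul_card_stabilizer_eq_card_group P x
    have horb2 : (orbit P x).ncard = 2 := by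
      rw [← Nat.card_coe_set_eq, Nat.card_eq_fintype_card]
      have hepos : 0 < e a := by omega
      have : Fintype.card (orbit P x) * e a = 2 * e a := by rw [horb, hea]
      exact Nat.eq_of_mul_eq_mul_right hepos this
    obtain ⟨y, z, hyz, hyzeq⟩ := Set.ncard_eq_two.mp horb2
    have hxmem : x ∈ orbit P x := mem_orbit_self x
    -- the other point
    obtain ⟨x', hx', hx'orb⟩ : ∃ x' : X, x' ≠ x ∧ orbit P x = {x, x'} := by
      rw [hyzeq] at hxmem
      rcases hxmem with h | h
      · exact ⟨z, fun hh => hyz (by rw [← h, hh]), by rw [hyzeq, h]⟩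
      · have h' : x = z := h
        exact ⟨y, fun hh => hyz (by rw [hh, h']), by rw [hyzeq, h', Set.pair_comm]⟩
    refine ⟨x, x', hx'.symm, ?_⟩
    have hle : stabilizer P x ≤ stabilizer P x' := by
      intro g hg
      rw [mem_stabilizer_iff] at hg ⊢
      have hmem : g • x' ∈ orbit P x := by
        have : x' ∈ orbit P x := by rw [hx'orb]; simp
        exact mem_orbit_of_mem_orbit g this
      rw [hx'orb] at hmem
      rcases hmem with h | h
      · exfalso
        apply hx'
        have : g • x' = g • x := by rw [h, hg]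
        exact smul_left_cancel g this
      · exact h
    rw [inf_eq_left.mpr hle, hnc]
    have h1 : Nat.card ↥(stabilizer P x) = e a := Nat.card_eq_fintype_card
    rw [h1]
    omega
  · right
    rw [hnc]
    exact h

end Klein

end Fermat.Agent.DS.Image.KleinAbs94
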