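/-
Programme DS (S48, Deligne–Serre), chapter Image, brick BOUNDED-IMAGE (helper94).  Mathlib only.

The Klein count for a *non-faithful* action, and the two abstract counting lemmas that turn its
two outcomes into bounds for `#Γ`.
-/
import Fermat.Agent.DS.Image.KleinAbs94

set_option autoImplicit false
set_option linter.style.haveILetI false

namespace Fermat.Agent.DS.Image.KleinKer94

open MulAction Fermat.Agent.DS.Image.KleinAbs94

section Klein

variable {Γ X : Type*} [Group Γ] [MulAction Γ X]

theorem mem_ker_toPermHom {g : Γ} : g ∈ (toPermHom Γ X).ker ↔ ∀ x : X, g • x = x := by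
  rw [MonoidHom.mem_ker]
  constructor
  · intro h x
    have := congrArg (fun σ : Equiv.Perm X => σ x) h
    simpa using this
  · intro h
    ext x
    simpa using h x

/-- **Klein count, non-faithful form.**  If every element of the finite group `Γ` which does not
act trivially on the finite set `X` has exactly two fixed points, then two distinct points have a
common stabiliser of index `≤ 2`, or the kernel of the action has index `≤ 60`. -/
theorem klein_ker [Finite Γ] [Finite X]
    (hfix : ∀ g : Γ, g ∉ (toPermHom Γ X).ker → (fixedBy X g).ncard = 2) :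
    (∃ x x' : X, x ≠ x' ∧ Nat.card Γ ≤ 2 * Nat.card ↥(stabilizer Γ x ⊓ stabilizer Γ x')) ∨
      Nat.card Γ ≤ 60 * Nat.card ↥(toPermHom Γ X).ker := by
  classical
  set φ := toPermHom Γ X with hφ
  have hsm : ∀ (σ : φ.range) (x : X), σ • x = (σ : Equiv.Perm X) x := fun σ x => rfl
  have hP : ∀ σ : φ.range, σ ≠ 1 → (fixedBy X σ).ncard = 2 := by
    rintro ⟨σ, g, rfl⟩ hne
    have hg : g ∉ φ.ker := by
      intro h
      apply hne
      ext x
      rw [MonoidHom.mem_ker] at h
      simp [h]
    rw [← hfix g hg]
    congr 1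
  have hcardΓ : Nat.card ↥φ.ker * Nat.card ↥φ.range = Nat.card Γ := by
    rw [← Subgroup.index_ker]
    exact Subgroup.card_mul_index _
  rcases klein (P := ↥φ.range) (X := X) hP with ⟨x, x', hxx', hle⟩ | h60
  · left
    refine ⟨x, x', hxx', ?_⟩
    set T := stabilizer (↥φ.range) x ⊓ stabilizer (↥φ.range) x' with hT
    set S := stabilizer Γ x ⊓ stabilizer Γ x' with hS
    have hST : S = T.comap φ.rangeRestrict := by
      ext g
      simp only [hS, hT, Subgroup.mem_inf, mem_stabilizer_iff, Subgroup.mem_comap]
      rfl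
    have hidx : S.index = T.index := by
      rw [hST]
      exact Subgroup.index_comap_of_surjective _ φ.rangeRestrict_surjective
    have h1 : Nat.card ↥S * S.index = Nat.card Γ := Subgroup.card_mul_index S
    have h2 : Nat.card ↥T * T.index = Nat.card ↥φ.range := Subgroup.card_mul_index T
    have hTpos : 0 < Nat.card ↥T := Nat.card_pos
    have hi2 : T.index ≤ 2 := by
      rw [← h2, mul_comm] at hle
      exact Nat.le_of_mul_le_mul_right hle hTpos
    rw [← h1, hidx, mul_comm]
    exact Nat.mul_le_mul_right _ hi2
  · right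
    rw [← hcardΓ, mul_comm]
    exact Nat.mul_le_mul_right _ h60

end Klein

section Count

variable {Γ β : Type*} [Group Γ] [Finite Γ] [DecidableEq β]

/-- A finset all of whose triples contain a repetition has at most two elements. -/
theorem card_le_two_of_triples {α : Type*} [DecidableEq α] (s : Finset α)
    (h : ∀ a ∈ s, ∀ b ∈ s, ∀ c ∈ s, a = b ∨ a = c ∨ b = c) : s.card ≤ 2 := by
  by_contra hcon
  rw [not_le] at hcon
  obtain ⟨a, b, c, ha, hb, hc, hab, hac, hbc⟩ := Finset.two_lt_card_iff.mp hcon
  rcases h a ha b hb c hc with h | h | h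
  · exact hab h
  · exact hac h
  · exact hbc h

/-- **Counting, index `≤ 2` case.**  If `f` is at most two-to-one on the subgroup `C`, then a finset
`H` on which `f` takes at most `M` values has at most `2 M + (#Γ - #C)` elements. -/
theorem count_index_two (C : Subgroup Γ) (f : Γ → β)
    (hf : ∀ a ∈ C, ∀ b ∈ C, ∀ c ∈ C, f a = f b → f a = f c → a = b ∨ a = c ∨ b = c)
    (H : Finset Γ) (M : ℕ) (hM : (H.image f).card ≤ M) :
    H.card + Nat.card ↥C ≤ 2 * M + Nat.card Γ := by
  classical
  haveI : Fintype Γ := Fintype.ofFinite Γ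
  have h1 : (H.filter (· ∈ C)).card + (H.filter (¬ · ∈ C)).card = H.card :=
    Finset.card_filter_add_card_filter_not _
  have h2 : (Finset.univ.filter (· ∈ C)).card + (Finset.univ.filter (¬ · ∈ C)).card
      = Fintype.card Γ := by
    rw [Finset.card_filter_add_card_filter_not, Finset.card_univ]
  have h3 : (Finset.univ.filter (· ∈ C)).card = Nat.card ↥C := by
    rw [Nat.card_eq_fintype_card, Fintype.card_subtype]
  have h4 : (H.filter (¬ · ∈ C)).card ≤ (Finset.univ.filter (¬ · ∈ C)).card :=
    Finset.card_le_card (Finset.filter_subset_filter _ (Finset.subset_univ H))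
  have h5 : (H.filter (· ∈ C)).card ≤ 2 * ((H.filter (· ∈ C)).image f).card := by
    apply Finset.card_le_mul_card_image
    intro b _
    apply card_le_two_of_triples
    intro x hx y hy z hz
    simp only [Finset.mem_filter] at hx hy hz
    exact hf x hx.1.2 y hy.1.2 z hz.1.2 (hx.2.trans hy.2.symm) (hx.2.trans hz.2.symm)
  have h6 : ((H.filter (· ∈ C)).image f).card ≤ M :=
    le_trans (Finset.card_le_card (Finset.image_subset_image (Finset.filter_subset _ _))) hM
  rw [Nat.card_eq_fintype_card (α := Γ)]
  omega

/-- **Counting, bounded central index case.**  If `#Γ ≤ N · #Z` and `f` takes each value at most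
twice on each coset of `Z`, then a finset `H` on which `f` takes at most `M` values has at most
`2 N M` elements. -/
theorem count_cosets (Z : Subgroup Γ) (N : ℕ) (hZ : Nat.card Γ ≤ N * Nat.card ↥Z) (f : Γ → β)
    (hf : ∀ g : Γ, ∀ z ∈ Z, ∀ z' ∈ Z, f (g * z) = f g → f (g * z') = f g →
      z = 1 ∨ z' = 1 ∨ z = z')
    (H : Finset Γ) (M : ℕ) (hM : (H.image f).card ≤ M) :
    H.card ≤ 2 * N * M := by
  classical
  haveI : Fintype Γ := Fintype.ofFinite Γ
  haveI : Fintype (Γ ⧸ Z) := Fintype.ofFinite _
  have hidx : Fintype.card (Γ ⧸ Z) ≤ N := by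
    have h1 : Nat.card ↥Z * Z.index = Nat.card Γ := Subgroup.card_mul_index Z
    have hpos : 0 < Nat.card ↥Z := Nat.card_pos
    rw [← Nat.card_eq_fintype_card]
    change Z.index ≤ N
    rw [← h1, mul_comm] at hZ
    exact Nat.le_of_mul_le_mul_right hZ hpos
  have hfib : ∀ b : β, (H.filter fun g => f g = b).card ≤ 2 * N := by
    intro b
    have h1 : (H.filter fun g => f g = b).card
        ≤ 2 * ((H.filter fun g => f g = b).image (QuotientGroup.mk : Γ → Γ ⧸ Z)).card := by
      apply Finset.card_le_mul_card_image
      intro q _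
      apply card_le_two_of_triples
      intro x hx y hy z hz
      simp only [Finset.mem_filter] at hx hy hz
      -- `y = x * u`, `z = x * v` with `u v ∈ Z`
      have hu : x⁻¹ * y ∈ Z := QuotientGroup.eq.mp (hx.2.trans hy.2.symm)
      have hv : x⁻¹ * z ∈ Z := QuotientGroup.eq.mp (hx.2.trans hz.2.symm)
      have e1 : f (x * (x⁻¹ * y)) = f x := by
        rw [mul_inv_cancel_left, hy.1.2, hx.1.2]
      have e2 : f (x * (x⁻¹ * z)) = f x := by
        rw [mul_inv_cancel_left, hz.1.2, hx.1.2]
      rcases hf x _ hu _ hv e1 e2 with h | h | h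
      · left
        exact (inv_mul_eq_one.mp h)
      · right; left
        exact (inv_mul_eq_one.mp h)
      · right; right
        exact mul_left_cancel h
    have h2 : ((H.filter fun g => f g = b).image (QuotientGroup.mk : Γ → Γ ⧸ Z)).card
        ≤ Fintype.card (Γ ⧸ Z) := Finset.card_le_univ _
    calc (H.filter fun g => f g = b).card ≤ 2 * _ := h1
      _ ≤ 2 * N := Nat.mul_le_mul_left _ (le_trans h2 hidx)
  calc H.card ≤ (2 * N) * (H.image f).card :=
        Finset.card_le_mul_card_image _ _ fun b _ => hfib b
    _ ≤ 2 * N * M := Nat.mul_le_mul_left _ hM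

end Count

end Fermat.Agent.DS.Image.KleinKer94
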