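/-
Programme DS (S48, Deligne–Serre), chapter Image, brick BOUNDED-IMAGE (helper94).

`GL₂(K)` acting on `OnePoint K`: the kernel is the scalars, the action is 2-transitive, the common
stabiliser of `∞` and `0` is the diagonal torus, and (trace, det) is at most two-to-one on the common
stabiliser of two distinct points.
-/
import Fermat.Agent.TW.Dickson.FixedPts78

set_option autoImplicit false
set_option linter.unusedSectionVars false

namespace Fermat.Agent.DS.Image.ProjLine94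

open Matrix OnePoint Polynomial
open scoped MatrixGroups
open Fermat.Agent.TW.Dickson.FixedPts78

variable {K : Type*} [Field K] [DecidableEq K]

/-- `g` fixes `0` iff its upper right entry vanishes. -/
theorem smul_zero_eq_self_iff {g : GL (Fin 2) K} :
    g • ((0 : K) : OnePoint K) = ((0 : K) : OnePoint K) ↔ g 0 1 = 0 := by
  rw [← GeneralLinearGroup.fixpointPolynomial_aeval_eq_zero_iff]
  simp [GeneralLinearGroup.fixpointPolynomial]

/-- `g` fixes `1` iff `g 1 0 + g 1 1 = g 0 0 + g 0 1`. -/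
theorem smul_one_eq_self_iff {g : GL (Fin 2) K} :
    g • ((1 : K) : OnePoint K) = ((1 : K) : OnePoint K) ↔ g 1 0 + (g 1 1 - g 0 0) - g 0 1 = 0 := by
  rw [← GeneralLinearGroup.fixpointPolynomial_aeval_eq_zero_iff]
  simp [GeneralLinearGroup.fixpointPolynomial]

/-- An element acting trivially on the projective line is scalar. -/
theorem scalar_of_smul_eq_self {g : GL (Fin 2) K} (h : ∀ x : OnePoint K, g • x = x) :
    g.val ∈ Set.range (Matrix.scalar (Fin 2)) := by
  rw [mem_range_scalar_iff]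
  have h1 : g 1 0 = 0 := smul_infty_eq_self_iff.mp (h ∞)
  have h2 : g 0 1 = 0 := smul_zero_eq_self_iff.mp (h _)
  have h3 := smul_one_eq_self_iff.mp (h _)
  refine ⟨h2, h1, ?_⟩
  rw [h1, h2] at h3
  linear_combination -h3

/-- Scalars act trivially. -/
theorem smul_eq_self_of_mem_range_scalar {g : GL (Fin 2) K}
    (h : g.val ∈ Set.range (Matrix.scalar (Fin 2))) (x : OnePoint K) : g • x = x := by
  rw [mem_range_scalar_iff] at h
  exact smul_eq_self_of_scalar h.1 h.2.1 h.2.2 x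

/-- The action on the projective line is 2-transitive. -/
theorem exists_smul_infty_zero {x x' : OnePoint K} (hxx' : x ≠ x') :
    ∃ h : GL (Fin 2) K, h • (∞ : OnePoint K) = x ∧ h • ((0 : K) : OnePoint K) = x' := by
  cases x with
  | infty =>
    cases x' with
    | infty => exact absurd rfl hxx'
    | coe c =>
      refine ⟨GeneralLinearGroup.mkOfDetNeZero !![1, c; 0, 1] (by simp [det_fin_two]), ?_, ?_⟩
      · rw [smul_infty_eq_ite]; simp [GeneralLinearGroup.mkOfDetNeZero]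
      · rw [smul_some_eq_ite]; simp [GeneralLinearGroup.mkOfDetNeZero]
  | coe c =>
    cases x' with
    | infty =>
      refine ⟨GeneralLinearGroup.mkOfDetNeZero !![c, 1; 1, 0] (by simp [det_fin_two]), ?_, ?_⟩
      · rw [smul_infty_eq_ite]; simp [GeneralLinearGroup.mkOfDetNeZero]
      · rw [smul_some_eq_ite]; simp [GeneralLinearGroup.mkOfDetNeZero]
    | coe c' =>
      have hcc' : c ≠ c' := fun h => hxx' (by rw [h])
      refine ⟨GeneralLinearGroup.mkOfDetNeZero !![c, c'; 1, 1]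
        (by simp [det_fin_two, sub_eq_zero, hcc']), ?_, ?_⟩
      · rw [smul_infty_eq_ite]; simp [GeneralLinearGroup.mkOfDetNeZero]
      · rw [smul_some_eq_ite]; simp [GeneralLinearGroup.mkOfDetNeZero]

/-- Extensionality for `GL₂` by the four entries. -/
theorem gl_ext4 {g h : GL (Fin 2) K} (h00 : g 0 0 = h 0 0) (h01 : g 0 1 = h 0 1)
    (h10 : g 1 0 = h 1 0) (h11 : g 1 1 = h 1 1) : g = h := by
  apply Units.ext
  ext i j
  fin_cases i <;> fin_cases j <;> assumption

/-- Among three diagonal matrices with the same trace and determinant, two coincide. -/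
theorem diag_two_of_three {D₁ D₂ D₃ : GL (Fin 2) K}
    (h₁ : D₁ 1 0 = 0) (h₁' : D₁ 0 1 = 0) (h₂ : D₂ 1 0 = 0) (h₂' : D₂ 0 1 = 0)
    (h₃ : D₃ 1 0 = 0) (h₃' : D₃ 0 1 = 0)
    (ht12 : D₁.val.trace = D₂.val.trace) (hd12 : D₁.val.det = D₂.val.det)
    (ht13 : D₁.val.trace = D₃.val.trace) (hd13 : D₁.val.det = D₃.val.det) :
    D₁ = D₂ ∨ D₁ = D₃ ∨ D₂ = D₃ := by
  rw [trace_fin_two, trace_fin_two] at ht12 ht13
  rw [det_fin_two, det_fin_two] at hd12 hd13
  change D₁ 0 0 + D₁ 1 1 = D₂ 0 0 + D₂ 1 1 at ht12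
  change D₁ 0 0 + D₁ 1 1 = D₃ 0 0 + D₃ 1 1 at ht13
  change D₁ 0 0 * D₁ 1 1 - D₁ 0 1 * D₁ 1 0 = D₂ 0 0 * D₂ 1 1 - D₂ 0 1 * D₂ 1 0 at hd12
  change D₁ 0 0 * D₁ 1 1 - D₁ 0 1 * D₁ 1 0 = D₃ 0 0 * D₃ 1 1 - D₃ 0 1 * D₃ 1 0 at hd13
  rw [h₁, h₁', h₂, h₂'] at hd12
  rw [h₁, h₁', h₃, h₃'] at hd13
  have e2 : (D₁ 0 0 - D₂ 0 0) * (D₂ 0 0 - D₁ 1 1) = 0 := by
    linear_combination (D₂ 0 0) * ht12 - hd12
  have e3 : (D₁ 0 0 - D₃ 0 0) * (D₃ 0 0 - D₁ 1 1) = 0 := by
    linear_combination (D₃ 0 0) * ht13 - hd13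
  rcases mul_eq_zero.mp e2 with e2 | e2
  · left
    have h00 : D₁ 0 0 = D₂ 0 0 := sub_eq_zero.mp e2
    refine gl_ext4 h00 (by rw [h₁', h₂']) (by rw [h₁, h₂]) ?_
    linear_combination ht12 - h00
  rcases mul_eq_zero.mp e3 with e3 | e3
  · right; left
    have h00 : D₁ 0 0 = D₃ 0 0 := sub_eq_zero.mp e3
    refine gl_ext4 h00 (by rw [h₁', h₃']) (by rw [h₁, h₃]) ?_
    linear_combination ht13 - h00
  · right; right
    have h00 : D₂ 0 0 = D₃ 0 0 := by
      rw [sub_eq_zero.mp e2, sub_eq_zero.mp e3]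
    refine gl_ext4 h00 (by rw [h₂', h₃']) (by rw [h₂, h₃]) ?_
    linear_combination ht13 - ht12 - h00

/-- (trace, det) is at most two-to-one on the common stabiliser of two distinct points. -/
theorem two_of_three_eq {x x' : OnePoint K} (hxx' : x ≠ x') {g₁ g₂ g₃ : GL (Fin 2) K}
    (h₁ : g₁ • x = x) (h₁' : g₁ • x' = x') (h₂ : g₂ • x = x) (h₂' : g₂ • x' = x')
    (h₃ : g₃ • x = x) (h₃' : g₃ • x' = x')
    (ht12 : g₁.val.trace = g₂.val.trace) (hd12 : g₁.val.det = g₂.val.det)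
    (ht13 : g₁.val.trace = g₃.val.trace) (hd13 : g₁.val.det = g₃.val.det) :
    g₁ = g₂ ∨ g₁ = g₃ ∨ g₂ = g₃ := by
  obtain ⟨h, hx, hx'⟩ := exists_smul_infty_zero hxx'
  have hfix : ∀ (g : GL (Fin 2) K) (y z : OnePoint K), h • y = z → g • z = z →
      (h⁻¹ * g * h) • y = y := by
    intro g y z hy hg
    rw [mul_smul, mul_smul, hy, hg, ← hy, inv_smul_smul]
  have htr : ∀ g : GL (Fin 2) K, (h⁻¹ * g * h).val.trace = g.val.trace := by
    intro g
    have := Matrix.trace_units_conj' h g.val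
    simpa using this
  have hdet : ∀ g : GL (Fin 2) K, (h⁻¹ * g * h).val.det = g.val.det := by
    intro g
    have := Matrix.det_units_conj' h g.val
    simpa using this
  have hinj : ∀ g g' : GL (Fin 2) K, h⁻¹ * g * h = h⁻¹ * g' * h → g = g' := by
    intro g g' e
    exact mul_left_cancel (mul_right_cancel e)
  have key := diag_two_of_three
    (D₁ := h⁻¹ * g₁ * h) (D₂ := h⁻¹ * g₂ * h) (D₃ := h⁻¹ * g₃ * h)
    (smul_infty_eq_self_iff.mp (hfix g₁ _ _ hx h₁)) (smul_zero_eq_self_iff.mp (hfix g₁ _ _ hx' h₁'))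
    (smul_infty_eq_self_iff.mp (hfix g₂ _ _ hx h₂)) (smul_zero_eq_self_iff.mp (hfix g₂ _ _ hx' h₂'))
    (smul_infty_eq_self_iff.mp (hfix g₃ _ _ hx h₃)) (smul_zero_eq_self_iff.mp (hfix g₃ _ _ hx' h₃'))
    (by rw [htr, htr, ht12]) (by rw [hdet, hdet, hd12])
    (by rw [htr, htr, ht13]) (by rw [hdet, hdet, hd13])
  rcases key with e | e | e
  · exact Or.inl (hinj _ _ e)
  · exact Or.inr (Or.inl (hinj _ _ e))
  · exact Or.inr (Or.inr (hinj _ _ e))

/-- Powers of `a + n` with `n ^ 2 = 0`. -/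
theorem scalar_add_nilp_pow (a : K) (n : Matrix (Fin 2) (Fin 2) K) (hn : n ^ 2 = 0) (k : ℕ) :
    (scalar (Fin 2) a + n) ^ (k + 1) = scalar (Fin 2) (a ^ (k + 1)) + (((k + 1 : ℕ) : K) * a ^ k) • n := by
  have hnn : n * n = 0 := by rw [← sq]; exact hn
  have hs : ∀ b : K, scalar (Fin 2) b = b • (1 : Matrix (Fin 2) (Fin 2) K) := fun b => by
    rw [scalar_apply, smul_one_eq_diagonal]
  induction k with
  | zero => simp
  | succ k ih =>
    rw [pow_succ, ih]
    simp only [hs, add_mul, mul_add, smul_mul_assoc, mul_smul_comm, one_mul, mul_one, hnn,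
      smul_zero, add_zero]
    push_cast
    module

/-- In characteristic `p`, a parabolic element of finite order has order divisible by `p`. -/
theorem dvd_of_isParabolic_of_pow_eq_one [NeZero (2 : K)] (p : ℕ) [CharP K p]
    {m : Matrix (Fin 2) (Fin 2) K} (hm : m.IsParabolic) {k : ℕ} (hk : k ≠ 0) (hmk : m ^ k = 1) :
    p ∣ k := by
  obtain ⟨a, n, rfl, hn0, hnsq⟩ := isParabolic_iff_exists.mp hm
  obtain ⟨j, rfl⟩ := Nat.exists_eq_succ_of_ne_zero hk
  rw [Nat.succ_eq_add_one, scalar_add_nilp_pow a n hnsq j] at hmk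
  have hnn : n * n = 0 := by rw [← sq]; exact hnsq
  -- `c • n` is the scalar `1 - a ^ (j+1)`
  have h1 : (((j + 1 : ℕ) : K) * a ^ j) • n = scalar (Fin 2) (1 - a ^ (j + 1)) := by
    rw [map_sub, map_one, eq_sub_iff_add_eq, add_comm]
    exact hmk
  have h2 : scalar (Fin 2) ((1 - a ^ (j + 1)) * (1 - a ^ (j + 1))) = 0 := by
    rw [map_mul, ← h1, smul_mul_smul_comm, hnn, smul_zero]
  have h3 : (1 - a ^ (j + 1)) = 0 := by
    rw [← map_zero (scalar (Fin 2)), scalar_inj] at h2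
    exact mul_self_eq_zero.mp h2
  rw [h3, map_zero, smul_eq_zero] at h1
  have ha : a ≠ 0 := by
    intro h
    rw [h, zero_pow (Nat.succ_ne_zero j), sub_zero] at h3
    exact one_ne_zero h3
  have h4 : ((j + 1 : ℕ) : K) = 0 := by
    rcases h1 with h | h
    · rcases mul_eq_zero.mp h with h | h
      · exact h
      · exact absurd (pow_eq_zero_iff (Nat.pos_of_ne_zero (fun hj => by
          rw [hj, pow_zero] at h; exact one_ne_zero h)).ne' |>.mp h) ha
    · exact absurd h hn0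
  exact (CharP.cast_eq_zero_iff K p (j + 1)).mp h4

end Fermat.Agent.DS.Image.ProjLine94
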