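/-
Programme DS (S48, Deligne–Serre), chapter Image, brick BOUNDED-IMAGE (helper94).

**Case (B), over a finite field `K` in which all the eigenvalues live.**  A finite group `Γ` with a
faithful representation `ρ : Γ → GL₂(K)`, all of whose elements have a square discriminant and none
of which is parabolic.  If `H ⊆ Γ` is a finset on which (trace, det) takes at most `M` values, then
`2 #H ≤ 4 M + #Γ` or `#H ≤ 120 M`.
-/
import Fermat.Agent.DS.Image.KleinKer94
import Fermat.Agent.DS.Image.ProjLine94

set_option autoImplicit false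
set_option linter.unusedSectionVars false
set_option linter.style.haveILetI false

namespace Fermat.Agent.DS.Image.CaseB94

open Matrix OnePoint MulAction
open scoped MatrixGroups
open Fermat.Agent.TW.Dickson.FixedPts78 Fermat.Agent.DS.Image.ProjLine94
  Fermat.Agent.DS.Image.KleinKer94

variable {K : Type*} [Field K] [DecidableEq K]

/-- If `ζ g` and `g` have the same determinant, then `ζ = ± 1`. -/
theorem scalar_sq_eq_one {g z : GL (Fin 2) K} {ζ : K} (hz : z.val = scalar (Fin 2) ζ)
    (hdet : (g * z).val.det = g.val.det) : ζ = 1 ∨ ζ = -1 := by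
  have h1 : (g * z).val.det = g.val.det * (ζ * ζ) := by
    rw [Units.val_mul, det_mul, hz, scalar_apply, det_diagonal, Fin.prod_univ_two]
  rw [h1] at hdet
  have hg : g.val.det ≠ 0 := g.det_ne_zero
  have h2 : ζ * ζ = 1 := by
    have : g.val.det * (ζ * ζ) = g.val.det * 1 := by rw [hdet, mul_one]
    exact mul_left_cancel₀ hg this
  exact mul_self_eq_one_iff.mp h2

theorem caseB_field [Finite K] [NeZero (2 : K)] {Γ : Type*} [Group Γ] [Finite Γ]
    (ρ : Γ →* GL (Fin 2) K) (hρ : Function.Injective ρ)
    (hsq : ∀ γ, IsSquare (ρ γ).val.discr)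
    (hnp : ∀ γ, ¬ (ρ γ).val.IsParabolic)
    (H : Finset Γ) (M : ℕ)
    (hM : (H.image fun γ => ((ρ γ).val.trace, (ρ γ).val.det)).card ≤ M) :
    2 * H.card ≤ 4 * M + Nat.card Γ ∨ H.card ≤ 120 * M := by
  classical
  letI : MulAction Γ (OnePoint K) := MulAction.compHom _ ρ
  have hsm : ∀ (γ : Γ) (x : OnePoint K), γ • x = ρ γ • x := fun _ _ => rfl
  haveI : Finite (OnePoint K) := inferInstanceAs (Finite (Option K))
  -- the kernel of the action
  have hker : ∀ γ : Γ, γ ∈ (toPermHom Γ (OnePoint K)).ker ↔
      (ρ γ).val ∈ Set.range (scalar (Fin 2)) := by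
    intro γ
    rw [mem_ker_toPermHom]
    constructor
    · intro h
      exact scalar_of_smul_eq_self fun x => by rw [← hsm, h]
    · intro h x
      rw [hsm]
      exact smul_eq_self_of_mem_range_scalar h x
  -- two fixed points
  have hfix : ∀ γ : Γ, γ ∉ (toPermHom Γ (OnePoint K)).ker →
      (fixedBy (OnePoint K) γ).ncard = 2 := by
    intro γ hγ
    rw [hker] at hγ
    obtain ⟨d, hd⟩ := hsq γ
    have hd0 : d ≠ 0 := by
      intro h
      apply hnp γ
      refine ⟨hγ, ?_⟩
      rw [hd, h, mul_zero]
    obtain ⟨x₁, x₂, h12, hx⟩ := exists_two_fixed hd0 hd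
    have : fixedBy (OnePoint K) γ = {x₁, x₂} := by
      ext x
      rw [mem_fixedBy, hsm, hx]
      simp
    rw [this, Set.ncard_pair h12]
  set f : Γ → K × K := fun γ => ((ρ γ).val.trace, (ρ γ).val.det) with hf
  rcases klein_ker hfix with ⟨x, x', hxx', hle⟩ | h60
  · left
    have key := count_index_two (stabilizer Γ x ⊓ stabilizer Γ x') f ?_ H M hM
    · omega
    · intro a ha b hb c hc hab hac
      rw [Subgroup.mem_inf, mem_stabilizer_iff, mem_stabilizer_iff] at ha hb hc
      simp only [hf, Prod.mk.injEq] at hab hac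
      rcases two_of_three_eq hxx' (g₁ := ρ a) (g₂ := ρ b) (g₃ := ρ c)
        ha.1 ha.2 hb.1 hb.2 hc.1 hc.2 hab.1 hab.2 hac.1 hac.2 with e | e | e
      · exact Or.inl (hρ e)
      · exact Or.inr (Or.inl (hρ e))
      · exact Or.inr (Or.inr (hρ e))
  · right
    have key := count_cosets (toPermHom Γ (OnePoint K)).ker 60 h60 f ?_ H M hM
    · omega
    · intro g z hz z' hz' e e'
      rw [hker] at hz hz'
      obtain ⟨ζ, hζ⟩ := hz
      obtain ⟨ζ', hζ'⟩ := hz'
      simp only [hf, Prod.mk.injEq, map_mul] at e e'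
      have h1 := scalar_sq_eq_one hζ.symm e.2
      have h2 := scalar_sq_eq_one hζ'.symm e'.2
      have hone : ∀ (w : Γ) (ξ : K), scalar (Fin 2) ξ = (ρ w).val → ξ = 1 → w = 1 := by
        intro w ξ hw hξ
        apply hρ
        rw [map_one]
        apply Units.ext
        rw [← hw, hξ, map_one, Units.val_one]
      rcases h1 with h1 | h1
      · exact Or.inl (hone z ζ hζ h1)
      rcases h2 with h2 | h2
      · exact Or.inr (Or.inl (hone z' ζ' hζ' h2))
      · right; right
        apply hρ
        apply Units.ext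
        rw [← hζ, ← hζ', h1, h2]

end Fermat.Agent.DS.Image.CaseB94
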