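/-
DS / Image : the frozen vocabulary of the BOUNDED-IMAGE brick (Deligne–Serre, Prop. 7.2).
Mathlib only.
-/
import Mathlib

namespace Fermat.Agent.DS.Image

/-- A subgroup `G ≤ GL₂(𝔽_ℓ)` is *semisimple* (acts semisimply on `𝔽_ℓ²`) when every `G`-stable
subspace has a `G`-stable complement. (Only lines matter: `⊥` and `⊤` are complements of each
other.) -/
def IsSemisimpleSub {ℓ : ℕ} (G : Subgroup (GL (Fin 2) (ZMod ℓ))) : Prop :=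
  ∀ L : Submodule (ZMod ℓ) (Fin 2 → ZMod ℓ),
    (∀ g ∈ G, L.map (Matrix.toLin' (g : Matrix (Fin 2) (Fin 2) (ZMod ℓ))) ≤ L) →
    ∃ L' : Submodule (ZMod ℓ) (Fin 2 → ZMod ℓ),
      (∀ g ∈ G, L'.map (Matrix.toLin' (g : Matrix (Fin 2) (Fin 2) (ZMod ℓ))) ≤ L') ∧ IsCompl L L'

/-- The pair (trace, determinant) of an element of `GL₂`, i.e. its characteristic polynomial. -/
def trDet {ℓ : ℕ} (g : GL (Fin 2) (ZMod ℓ)) : ZMod ℓ × ZMod ℓ :=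
  (Matrix.trace (g : Matrix (Fin 2) (Fin 2) (ZMod ℓ)),
    Matrix.det (g : Matrix (Fin 2) (Fin 2) (ZMod ℓ)))

/-- The statement of the bounded-image theorem (Deligne–Serre 7.2), as a `Prop`, so that the
pieces can be stated against it before it is proved. -/
def BoundedImageStatement : Prop :=
  ∀ (η : ℚ), η < 1 / 2 → ∀ M : ℕ, ∃ A : ℕ, ∀ (ℓ : ℕ) [Fact ℓ.Prime]
    (G : Subgroup (GL (Fin 2) (ZMod ℓ))), IsSemisimpleSub G →
    ∀ H : Finset (GL (Fin 2) (ZMod ℓ)), (∀ h ∈ H, h ∈ G) →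
      (1 - η) * (Nat.card G : ℚ) ≤ (H.card : ℚ) →
      (H.image trDet).card ≤ M → Nat.card G ≤ A

/-- The interface of case (A) (`ℓ ∣ #G`; owner helper69). -/
def CaseAStatement : Prop :=
  ∀ (η : ℚ), η < 1 → ∀ M : ℕ, ∃ A : ℕ, ∀ (ℓ : ℕ) [Fact ℓ.Prime]
    (G : Subgroup (GL (Fin 2) (ZMod ℓ))), IsSemisimpleSub G → ℓ ∣ Nat.card G →
    ∀ H : Finset (GL (Fin 2) (ZMod ℓ)), (∀ h ∈ H, h ∈ G) →
      (1 - η) * (Nat.card G : ℚ) ≤ (H.card : ℚ) →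
      (H.image trDet).card ≤ M → Nat.card G ≤ A

/-- The interface of case (B) (`ℓ ∤ #G`; owner helper94, proved in `Assembly94`). -/
def CaseBStatement : Prop :=
  ∀ (η : ℚ), η < 1 / 2 → ∀ M : ℕ, ∃ A : ℕ, ∀ (ℓ : ℕ) [Fact ℓ.Prime]
    (G : Subgroup (GL (Fin 2) (ZMod ℓ))), ¬ ℓ ∣ Nat.card G →
    ∀ H : Finset (GL (Fin 2) (ZMod ℓ)), (∀ h ∈ H, h ∈ G) →
      (1 - η) * (Nat.card G : ℚ) ≤ (H.card : ℚ) →
      (H.image trDet).card ≤ M → Nat.card G ≤ A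

end Fermat.Agent.DS.Image
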