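/-
Programme DS (S48, Deligne–Serre), chapter Image, brick BOUNDED-IMAGE (helper94).

**Case (B) over the prime field.**  `G ≤ GL₂(𝔽_ℓ)`, `ℓ` odd, `ℓ ∤ #G`; `H ⊆ G` a finset on which
(trace, det) takes at most `M` values.  Then `2 #H ≤ 4 M + #G` or `#H ≤ 120 M`.
(Base change to `𝔽_{ℓ²}`, where all the eigenvalues live, then `CaseB94.caseB_field`.)
-/
import Fermat.Agent.DS.Image.CaseB94
import Fermat.Agent.DS.Image.Defs94

set_option autoImplicit false
set_option linter.unusedSectionVars false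
set_option linter.style.haveILetI false

namespace Fermat.Agent.DS.Image.CaseBZMod94

open Matrix
open scoped MatrixGroups
open Fermat.Agent.DS.Image Fermat.Agent.DS.Image.CaseB94 Fermat.Agent.DS.Image.ProjLine94

/-- Every element of `𝔽_ℓ` is a square in `𝔽_{ℓ²}` (`ℓ` odd). -/
theorem isSquare_algebraMap_of_card_eq_sq (ℓ : ℕ) [Fact ℓ.Prime] (hℓ2 : ℓ ≠ 2) (K : Type*)
    [Field K] [Finite K] [Algebra (ZMod ℓ) K] [CharP K ℓ] (hK : Nat.card K = ℓ ^ 2)
    (b : ZMod ℓ) : IsSquare (algebraMap (ZMod ℓ) K b) := by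
  classical
  haveI : Fintype K := Fintype.ofFinite K
  by_cases hb : b = 0
  · rw [hb, map_zero]
    exact ⟨0, by simp⟩
  have ha : algebraMap (ZMod ℓ) K b ≠ 0 := by
    rw [Ne, map_eq_zero_iff _ (algebraMap (ZMod ℓ) K).injective]
    exact hb
  have hF : ringChar K ≠ 2 := by rw [ringChar.eq K ℓ]; exact hℓ2
  rw [FiniteField.isSquare_iff hF ha, ← Nat.card_eq_fintype_card, hK, ← map_pow]
  have hodd : Odd ℓ := (Fact.out : ℓ.Prime).odd_of_ne_two hℓ2
  obtain ⟨m, hm⟩ := hodd
  have h1 : ℓ ^ 2 / 2 = (ℓ - 1) * (m + 1) := by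
    have : ℓ ^ 2 = 2 * ((ℓ - 1) * (m + 1)) + 1 := by
      rw [hm]
      have : 2 * m + 1 - 1 = 2 * m := by omega
      rw [this]; ring
    omega
  rw [h1, pow_mul, ZMod.pow_card_sub_one_eq_one hb, one_pow, map_one]

theorem val_map {R S : Type*} [CommRing R] [CommRing S] (ι : R →+* S) (g : GL (Fin 2) R) :
    (GeneralLinearGroup.map ι g).val = ι.mapMatrix g.val := rfl

theorem trace_map_gl {R S : Type*} [CommRing R] [CommRing S] (ι : R →+* S) (g : GL (Fin 2) R) :
    (GeneralLinearGroup.map ι g).val.trace = ι g.val.trace := by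
  rw [val_map, trace_fin_two, trace_fin_two, map_add]
  rfl

theorem det_map_gl {R S : Type*} [CommRing R] [CommRing S] (ι : R →+* S) (g : GL (Fin 2) R) :
    (GeneralLinearGroup.map ι g).val.det = ι g.val.det := by
  rw [val_map, RingHom.map_det]

theorem discr_map_gl {R S : Type*} [CommRing R] [CommRing S] (ι : R →+* S) (g : GL (Fin 2) R) :
    (GeneralLinearGroup.map ι g).val.discr = ι g.val.discr := by
  rw [discr_fin_two, discr_fin_two, trace_map_gl, det_map_gl, map_sub, map_pow, map_mul]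
  congr 2
  exact (map_ofNat ι 4).symm

theorem map_gl_injective {R S : Type*} [CommRing R] [CommRing S] (ι : R →+* S)
    (hι : Function.Injective ι) :
    Function.Injective (GeneralLinearGroup.map (n := Fin 2) ι) := by
  intro g h e
  apply Units.ext
  ext i j
  apply hι
  have := congrArg (fun x : GL (Fin 2) S => x i j) e
  simpa using this

/-- **Case (B).** -/
theorem caseB (ℓ : ℕ) [Fact ℓ.Prime] (hℓ2 : ℓ ≠ 2) (G : Subgroup (GL (Fin 2) (ZMod ℓ)))
    (hG : ¬ ℓ ∣ Nat.card G) (H : Finset (GL (Fin 2) (ZMod ℓ))) (hH : ∀ h ∈ H, h ∈ G) (M : ℕ)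
    (hM : (H.image trDet).card ≤ M) :
    2 * H.card ≤ 4 * M + Nat.card G ∨ H.card ≤ 120 * M := by
  classical
  set K := GaloisField ℓ 2 with hKdef
  have hKcard : Nat.card K = ℓ ^ 2 := GaloisField.card ℓ 2 two_ne_zero
  set ι : ZMod ℓ →+* K := algebraMap (ZMod ℓ) K with hι
  have hιinj : Function.Injective ι := ι.injective
  haveI : NeZero (2 : K) := ⟨by
    intro h
    have h2 : ((2 : ℕ) : K) = 0 := by exact_mod_cast h
    rw [CharP.cast_eq_zero_iff K ℓ] at h2
    exact hℓ2 ((Nat.prime_dvd_prime_iff_eq (Fact.out : ℓ.Prime) Nat.prime_two).mp h2)⟩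
  haveI : Finite ↥G := inferInstance
  set ρ : ↥G →* GL (Fin 2) K := (GeneralLinearGroup.map ι).comp G.subtype with hρdef
  have hρ : Function.Injective ρ := (map_gl_injective ι hιinj).comp G.subtype_injective
  have hsq : ∀ γ, IsSquare (ρ γ).val.discr := by
    intro γ
    have : (ρ γ).val.discr = ι (γ.val.val.discr) := discr_map_gl ι γ.val
    rw [this]
    exact isSquare_algebraMap_of_card_eq_sq ℓ hℓ2 K hKcard _
  have hnp : ∀ γ, ¬ (ρ γ).val.IsParabolic := by
    intro γ hpar
    apply hG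
    have hpow : (ρ γ).val ^ Nat.card ↥G = 1 := by
      rw [← Units.val_pow_eq_pow_val, ← map_pow, pow_card_eq_one', map_one, Units.val_one]
    exact dvd_of_isParabolic_of_pow_eq_one ℓ hpar Nat.card_pos.ne' hpow
  -- the finset `H` inside `↥G`
  set H' : Finset ↥G := H.subtype (· ∈ G) with hH'
  have hcard : H'.card = H.card := by
    rw [hH', Finset.card_subtype, Finset.filter_true_of_mem hH]
  have himg : (H'.image fun γ => ((ρ γ).val.trace, (ρ γ).val.det)).card ≤ M := by
    refine le_trans ?_ hM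
    have : (H'.image fun γ => ((ρ γ).val.trace, (ρ γ).val.det))
        ⊆ (H.image trDet).image (Prod.map ι ι) := by
      intro p hp
      rw [Finset.mem_image] at hp
      obtain ⟨γ, hγ, rfl⟩ := hp
      rw [Finset.mem_image]
      refine ⟨trDet γ.val, Finset.mem_image_of_mem _ ?_, ?_⟩
      · rw [hH', Finset.mem_subtype] at hγ
        exact hγ
      · simp only [trDet, Prod.map_apply]
        rw [← trace_map_gl, ← det_map_gl]
        rfl
    exact le_trans (Finset.card_le_card this) Finset.card_image_le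
  have key := caseB_field ρ hρ hsq hnp H' M himg
  rw [hcard] at key
  exact key

end Fermat.Agent.DS.Image.CaseBZMod94
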