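/-
Programme DS (S48, Deligne–Serre), chapter Image, brick BOUNDED-IMAGE (helper94).

Assembly: case (B) as a bound `#G ≤ A(η, M)`, and the bounded-image theorem (Deligne–Serre 7.2)
from case (A).
-/
import Fermat.Agent.DS.Image.CaseBZMod94

set_option autoImplicit false
set_option linter.unusedSectionVars false
set_option linter.style.haveILetI false

namespace Fermat.Agent.DS.Image.Assembly94

open Matrix
open scoped MatrixGroups
open Fermat.Agent.DS.Image Fermat.Agent.DS.Image.CaseBZMod94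

/-- A subgroup of `GL₂(𝔽_ℓ)` has at most `ℓ ^ 4` elements. -/
theorem card_le_pow_four (ℓ : ℕ) [Fact ℓ.Prime] (G : Subgroup (GL (Fin 2) (ZMod ℓ))) :
    Nat.card G ≤ ℓ ^ 4 := by
  classical
  have h1 : Nat.card G ≤ Nat.card (GL (Fin 2) (ZMod ℓ)) :=
    Nat.card_le_card_of_injective _ G.subtype_injective
  have h2 : Nat.card (GL (Fin 2) (ZMod ℓ)) ≤ Nat.card (Matrix (Fin 2) (Fin 2) (ZMod ℓ)) :=
    Nat.card_le_card_of_injective _ Units.val_injective
  have h3 : Nat.card (Matrix (Fin 2) (Fin 2) (ZMod ℓ)) = ℓ ^ 4 := by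
    have : Nat.card (Matrix (Fin 2) (Fin 2) (ZMod ℓ)) = Nat.card (Fin 2 → Fin 2 → ZMod ℓ) := rfl
    rw [this, Nat.card_fun, Nat.card_fun, Nat.card_zmod, Nat.card_fin]
    ring
  omega

/-- **Case (B) as a bound.** -/
theorem caseBStatement : CaseBStatement := by
  intro η hη M
  refine ⟨max 16 (max ⌈(4 * M : ℚ) / (1 - 2 * η)⌉₊ ⌈(120 * M : ℚ) / (1 - η)⌉₊), ?_⟩
  intro ℓ _ G hG H hH hcard hM
  by_cases hℓ2 : ℓ = 2
  · subst hℓ2
    exact le_trans (card_le_pow_four 2 G) (le_max_left _ _)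
  have h1 : (0 : ℚ) < 1 - 2 * η := by linarith
  have h2 : (0 : ℚ) < 1 - η := by linarith
  rcases caseB ℓ hℓ2 G hG H hH M hM with h | h
  · have hq : (2 : ℚ) * H.card ≤ 4 * M + Nat.card G := by exact_mod_cast h
    have : (Nat.card G : ℚ) ≤ (4 * M : ℚ) / (1 - 2 * η) := by
      rw [le_div_iff₀ h1]
      nlinarith
    have h3 : Nat.card G ≤ ⌈(4 * M : ℚ) / (1 - 2 * η)⌉₊ :=
      Nat.cast_le.mp (le_trans this (Nat.le_ceil _))
    exact le_trans h3 (le_trans (le_max_left _ _) (le_max_right _ _))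
  · have hq : (H.card : ℚ) ≤ 120 * M := by exact_mod_cast h
    have : (Nat.card G : ℚ) ≤ (120 * M : ℚ) / (1 - η) := by
      rw [le_div_iff₀ h2]
      nlinarith
    have h3 : Nat.card G ≤ ⌈(120 * M : ℚ) / (1 - η)⌉₊ :=
      Nat.cast_le.mp (le_trans this (Nat.le_ceil _))
    exact le_trans h3 (le_trans (le_max_right _ _) (le_max_right _ _))

/-- **Bounded image (Deligne–Serre, Prop. 7.2)**, from case (A). -/
theorem boundedImage_of_caseA (hA : CaseAStatement) : BoundedImageStatement := by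
  intro η hη M
  obtain ⟨A₁, hA₁⟩ := hA η (by linarith) M
  obtain ⟨A₂, hA₂⟩ := caseBStatement η hη M
  refine ⟨max A₁ A₂, ?_⟩
  intro ℓ _ G hss H hH hcard hM
  by_cases hdvd : ℓ ∣ Nat.card G
  · exact le_trans (hA₁ ℓ G hss hdvd H hH hcard hM) (le_max_left _ _)
  · exact le_trans (hA₂ ℓ G hdvd H hH hcard hM) (le_max_right _ _)

end Fermat.Agent.DS.Image.Assembly94
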