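/-
# Deligne–Serre, bounded image (Prop. 7.2), case `ℓ ∣ #G`, part 1: transvections

Over a prime field `ZMod ℓ`, an upper unitriangular matrix `upper a` (`a ≠ 0`) and a lower
unitriangular matrix `lower b` (`b ≠ 0`) generate every matrix of determinant one.  We also
record the normal form of a unipotent `2 × 2` matrix fixing a given vector.

Mathlib only.
-/
import Mathlib

set_option autoImplicit false

namespace Fermat.Agent.DS.Image.Transvec69

open Matrix

variable {F : Type*} [Field F]

/-- The upper unitriangular matrix `[[1, x], [0, 1]]` as an element of `GL₂`. -/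
def upper (x : F) : GL (Fin 2) F :=
  ⟨!![1, x; 0, 1], !![1, -x; 0, 1],
    by simp [Matrix.one_fin_two],
    by simp [Matrix.one_fin_two]⟩

/-- The lower unitriangular matrix `[[1, 0], [y, 1]]` as an element of `GL₂`. -/
def lower (y : F) : GL (Fin 2) F :=
  ⟨!![1, 0; y, 1], !![1, 0; -y, 1],
    by simp [Matrix.one_fin_two],
    by simp [Matrix.one_fin_two]⟩

@[simp] theorem upper_val (x : F) : (upper x).val = !![1, x; 0, 1] := rfl
@[simp] theorem lower_val (y : F) : (lower y).val = !![1, 0; y, 1] := rfl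

theorem upper_mul (x y : F) : upper x * upper y = upper (x + y) := by
  apply Units.ext
  simp [add_comm]

theorem lower_mul (x y : F) : lower x * lower y = lower (x + y) := by
  apply Units.ext
  simp

theorem upper_zero : upper (0 : F) = 1 := by
  apply Units.ext
  simp [Matrix.one_fin_two]

theorem lower_zero : lower (0 : F) = 1 := by
  apply Units.ext
  simp [Matrix.one_fin_two]

theorem upper_pow (x : F) (k : ℕ) : upper x ^ k = upper ((k : F) * x) := by
  induction k with
  | zero => simp [upper_zero]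
  | succ k ih => rw [pow_succ, ih, upper_mul]; congr 1; push_cast; ring

theorem lower_pow (x : F) (k : ℕ) : lower x ^ k = lower ((k : F) * x) := by
  induction k with
  | zero => simp [lower_zero]
  | succ k ih => rw [pow_succ, ih, lower_mul]; congr 1; push_cast; ring

omit [Field F] in
theorem mat_ext2 {A B : Matrix (Fin 2) (Fin 2) F} (h00 : A 0 0 = B 0 0) (h01 : A 0 1 = B 0 1)
    (h10 : A 1 0 = B 1 0) (h11 : A 1 1 = B 1 1) : A = B := by
  ext i j
  fin_cases i <;> fin_cases j <;> assumption

/-- Explicit `U · L · U` factorisation of a determinant-one matrix with nonzero lower left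
entry. -/
theorem eq_upper_lower_upper (g : GL (Fin 2) F) (hg : g.val.det = 1) (hr : g.val 1 0 ≠ 0) :
    g = upper ((g.val 0 0 - 1) / g.val 1 0) * lower (g.val 1 0) *
      upper ((g.val 1 1 - 1) / g.val 1 0) := by
  apply Units.ext
  rw [Matrix.det_fin_two] at hg
  rw [Units.val_mul, Units.val_mul, upper_val, lower_val, upper_val, Matrix.mul_fin_two,
    Matrix.mul_fin_two]
  have hq : g.val 0 1 = (g.val 0 0 * g.val 1 1 - 1) / g.val 1 0 := by
    field_simp
    linear_combination -hg
  apply mat_ext2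
  · simp; field_simp; ring
  · simp; rw [hq]; field_simp; ring
  · simp
  · simp; field_simp; ring

/-- A subgroup of `GL₂(F)` containing all upper and all lower unitriangular matrices contains
every matrix of determinant one. -/
theorem mem_of_det_eq_one (K : Subgroup (GL (Fin 2) F)) (hU : ∀ x, upper x ∈ K)
    (hL : ∀ y, lower y ∈ K) (g : GL (Fin 2) F) (hg : g.val.det = 1) : g ∈ K := by
  by_cases hr : g.val 1 0 = 0
  · -- multiply by `lower 1` to make the lower left entry nonzero
    have hg' : (lower 1 * g).val.det = 1 := by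
      rw [Units.val_mul, Matrix.det_mul, hg, lower_val, Matrix.det_fin_two_of]; simp
    have hp : g.val 0 0 ≠ 0 := by
      intro h0
      rw [Matrix.det_fin_two, hr, h0] at hg
      simp at hg
    have hr' : (lower 1 * g).val 1 0 ≠ 0 := by
      rw [Units.val_mul, lower_val]
      conv_lhs => rw [Matrix.eta_fin_two g.val]
      rw [Matrix.mul_fin_two]
      simpa [hr] using hp
    have h1 : lower 1 * g ∈ K := by
      rw [eq_upper_lower_upper (lower 1 * g) hg' hr']
      exact K.mul_mem (K.mul_mem (hU _) (hL _)) (hU _)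
    have : g = (lower 1)⁻¹ * (lower 1 * g) := by group
    rw [this]
    exact K.mul_mem (K.inv_mem (hL 1)) h1
  · rw [eq_upper_lower_upper g hg hr]
    exact K.mul_mem (K.mul_mem (hU _) (hL _)) (hU _)

/-- A unipotent `2 × 2` matrix whose first column is `(1, 0)` is upper unitriangular. -/
theorem eq_upper_of_col (M : GL (Fin 2) F) (h00 : M.val 0 0 = 1) (h10 : M.val 1 0 = 0)
    (hM : (M.val - 1) ^ 2 = 0) : M = upper (M.val 0 1) := by
  apply Units.ext
  rw [upper_val]
  have h := congrFun (congrFun hM 1) 1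
  rw [pow_two, Matrix.mul_apply, Fin.sum_univ_two] at h
  simp only [Matrix.sub_apply, Matrix.one_apply_eq, h10, Matrix.zero_apply] at h
  have h11 : M.val 1 1 = 1 := by
    have : (M.val 1 1 - 1) * (M.val 1 1 - 1) = 0 := by simpa using h
    have := mul_self_eq_zero.mp this
    linear_combination this
  apply mat_ext2 <;> simp [h00, h10, h11]

/-- A unipotent `2 × 2` matrix whose second column is `(0, 1)` is lower unitriangular. -/
theorem eq_lower_of_col (M : GL (Fin 2) F) (h01 : M.val 0 1 = 0) (h11 : M.val 1 1 = 1)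
    (hM : (M.val - 1) ^ 2 = 0) : M = lower (M.val 1 0) := by
  apply Units.ext
  rw [lower_val]
  have h := congrFun (congrFun hM 0) 0
  rw [pow_two, Matrix.mul_apply, Fin.sum_univ_two] at h
  simp only [Matrix.sub_apply, Matrix.one_apply_eq, h01, Matrix.zero_apply] at h
  have h00 : M.val 0 0 = 1 := by
    have : (M.val 0 0 - 1) * (M.val 0 0 - 1) = 0 := by simpa using h
    have := mul_self_eq_zero.mp this
    linear_combination this
  apply mat_ext2 <;> simp [h00, h01, h11]

/-- The matrix with columns `e`, `e'`, as an element of `GL₂` when the determinant is nonzero. -/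
noncomputable def colGL (e e' : Fin 2 → F) (h : e 0 * e' 1 - e' 0 * e 1 ≠ 0) : GL (Fin 2) F :=
  Matrix.GeneralLinearGroup.mkOfDetNeZero !![e 0, e' 0; e 1, e' 1]
    (by rw [Matrix.det_fin_two_of]; exact h)

theorem colGL_val (e e' : Fin 2 → F) (h : e 0 * e' 1 - e' 0 * e 1 ≠ 0) :
    (colGL e e' h).val = !![e 0, e' 0; e 1, e' 1] := rfl

theorem colGL_mulVec_zero (e e' : Fin 2 → F) (h : e 0 * e' 1 - e' 0 * e 1 ≠ 0) :
    (colGL e e' h).val *ᵥ ![1, 0] = e := by
  rw [colGL_val]
  ext i
  fin_cases i <;> simp [Matrix.mulVec, dotProduct, Fin.sum_univ_two]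

theorem colGL_mulVec_one (e e' : Fin 2 → F) (h : e 0 * e' 1 - e' 0 * e 1 ≠ 0) :
    (colGL e e' h).val *ᵥ ![0, 1] = e' := by
  rw [colGL_val]
  ext i
  fin_cases i <;> simp [Matrix.mulVec, dotProduct, Fin.sum_univ_two]

/-- If `u` fixes the vector `e = P ε`, then `P⁻¹ u P` fixes `ε`. -/
theorem conj_mulVec_of_fixed (P u : GL (Fin 2) F) (ε e : Fin 2 → F) (hP : P.val *ᵥ ε = e)
    (hu : u.val *ᵥ e = e) : (P⁻¹ * u * P).val *ᵥ ε = ε := by
  rw [Units.val_mul, Units.val_mul, ← Matrix.mulVec_mulVec, ← Matrix.mulVec_mulVec, hP, hu, ← hP,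
    Matrix.mulVec_mulVec, ← Units.val_mul, inv_mul_cancel, Units.val_one, Matrix.one_mulVec]

theorem conj_sub_one_sq (P u : GL (Fin 2) F) (hu : (u.val - 1) ^ 2 = 0) :
    ((P⁻¹ * u * P).val - 1) ^ 2 = 0 := by
  have h1 : (P⁻¹ * u * P).val - 1 = P⁻¹.val * (u.val - 1) * P.val := by
    rw [Units.val_mul, Units.val_mul, Matrix.mul_sub, Matrix.sub_mul, Matrix.mul_one,
      ← Units.val_mul P⁻¹ P, inv_mul_cancel, Units.val_one]
  rw [h1, pow_two]
  calc P⁻¹.val * (u.val - 1) * P.val * (P⁻¹.val * (u.val - 1) * P.val)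
      = P⁻¹.val * ((u.val - 1) * (P.val * P⁻¹.val) * (u.val - 1)) * P.val := by
        simp only [Matrix.mul_assoc]
    _ = P⁻¹.val * ((u.val - 1) ^ 2) * P.val := by
        rw [← Units.val_mul P P⁻¹, mul_inv_cancel, Units.val_one, Matrix.mul_one, pow_two]
    _ = 0 := by rw [hu, Matrix.mul_zero, Matrix.zero_mul]

section PrimeField

variable {ℓ : ℕ} [Fact ℓ.Prime]

theorem upper_mem_zpowers {a : ZMod ℓ} (ha : a ≠ 0) (x : ZMod ℓ) :
    upper x ∈ Subgroup.zpowers (upper a) := by
  refine ⟨((x / a).val : ℤ), ?_⟩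
  show upper a ^ ((x / a).val : ℤ) = upper x
  rw [zpow_natCast, upper_pow, ZMod.natCast_zmod_val, div_mul_cancel₀ _ ha]

theorem lower_mem_zpowers {b : ZMod ℓ} (hb : b ≠ 0) (x : ZMod ℓ) :
    lower x ∈ Subgroup.zpowers (lower b) := by
  refine ⟨((x / b).val : ℤ), ?_⟩
  show lower b ^ ((x / b).val : ℤ) = lower x
  rw [zpow_natCast, lower_pow, ZMod.natCast_zmod_val, div_mul_cancel₀ _ hb]

/-- Over the prime field, one nontrivial upper and one nontrivial lower unitriangular matrix
generate every matrix of determinant one. -/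
theorem mem_of_det_eq_one_of_upper_lower (K : Subgroup (GL (Fin 2) (ZMod ℓ))) {a b : ZMod ℓ}
    (ha : a ≠ 0) (hb : b ≠ 0) (hU : upper a ∈ K) (hL : lower b ∈ K)
    (g : GL (Fin 2) (ZMod ℓ)) (hg : g.val.det = 1) : g ∈ K :=
  mem_of_det_eq_one K
    (fun x => (Subgroup.zpowers_le.mpr hU) (upper_mem_zpowers ha x))
    (fun y => (Subgroup.zpowers_le.mpr hL) (lower_mem_zpowers hb y)) g hg

/-- **Two unipotent elements with independent fixed vectors generate `SL₂` over the prime
field.**  If a subgroup `K` of `GL₂(𝔽_ℓ)` contains nontrivial unipotent elements `u`, `u'` fixing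
linearly independent vectors `e`, `e'`, then `K` contains every matrix of determinant one. -/
theorem mem_of_det_eq_one_of_unipotent_pair (K : Subgroup (GL (Fin 2) (ZMod ℓ)))
    (u u' : GL (Fin 2) (ZMod ℓ)) (hu : u ∈ K) (hu' : u' ∈ K) (hu1 : u ≠ 1) (hu1' : u' ≠ 1)
    (hun : (u.val - 1) ^ 2 = 0) (hun' : (u'.val - 1) ^ 2 = 0)
    (e e' : Fin 2 → ZMod ℓ) (he : u.val *ᵥ e = e) (he' : u'.val *ᵥ e' = e')
    (hdet : e 0 * e' 1 - e' 0 * e 1 ≠ 0)
    (g : GL (Fin 2) (ZMod ℓ)) (hg : g.val.det = 1) : g ∈ K := by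
  set P := colGL e e' hdet with hP
  -- the conjugated subgroup
  set K' : Subgroup (GL (Fin 2) (ZMod ℓ)) := K.comap (MulAut.conj P).toMonoidHom with hK'
  have hmem : ∀ x, x ∈ K' ↔ P * x * P⁻¹ ∈ K := fun x => Iff.rfl
  -- normal forms
  have h1 := conj_mulVec_of_fixed P u ![1, 0] e (colGL_mulVec_zero e e' hdet) he
  have h2 := conj_mulVec_of_fixed P u' ![0, 1] e' (colGL_mulVec_one e e' hdet) he'
  have hU : P⁻¹ * u * P = upper ((P⁻¹ * u * P).val 0 1) := by
    apply eq_upper_of_col _ _ _ (conj_sub_one_sq P u hun)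
    · have := congrFun h1 0
      simpa [Matrix.mulVec, dotProduct, Fin.sum_univ_two] using this
    · have := congrFun h1 1
      simpa [Matrix.mulVec, dotProduct, Fin.sum_univ_two] using this
  have hL : P⁻¹ * u' * P = lower ((P⁻¹ * u' * P).val 1 0) := by
    apply eq_lower_of_col _ _ _ (conj_sub_one_sq P u' hun')
    · have := congrFun h2 0
      simpa [Matrix.mulVec, dotProduct, Fin.sum_univ_two] using this
    · have := congrFun h2 1
      simpa [Matrix.mulVec, dotProduct, Fin.sum_univ_two] using this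
  have ha : (P⁻¹ * u * P).val 0 1 ≠ 0 := by
    intro h0
    rw [h0, upper_zero] at hU
    apply hu1
    have : u = P * (P⁻¹ * u * P) * P⁻¹ := by group
    rw [this, hU]; group
  have hb : (P⁻¹ * u' * P).val 1 0 ≠ 0 := by
    intro h0
    rw [h0, lower_zero] at hL
    apply hu1'
    have : u' = P * (P⁻¹ * u' * P) * P⁻¹ := by group
    rw [this, hL]; group
  have hUK : upper ((P⁻¹ * u * P).val 0 1) ∈ K' := by
    rw [← hU, hmem]
    have : P * (P⁻¹ * u * P) * P⁻¹ = u := by group
    rw [this]; exact hu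
  have hLK : lower ((P⁻¹ * u' * P).val 1 0) ∈ K' := by
    rw [← hL, hmem]
    have : P * (P⁻¹ * u' * P) * P⁻¹ = u' := by group
    rw [this]; exact hu'
  have hg' : (P⁻¹ * g * P).val.det = 1 := by
    rw [Units.val_mul, Units.val_mul, Matrix.det_mul, Matrix.det_mul, hg, mul_one, ← Matrix.det_mul,
      ← Units.val_mul, inv_mul_cancel, Units.val_one, Matrix.det_one]
  have := mem_of_det_eq_one_of_upper_lower K' ha hb hUK hLK (P⁻¹ * g * P) hg'
  rw [hmem] at this
  have hgg : P * (P⁻¹ * g * P) * P⁻¹ = g := by group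
  rwa [hgg] at this

end PrimeField

end Fermat.Agent.DS.Image.Transvec69
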