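/-
# Deligne–Serre, bounded image (Prop. 7.2), case `ℓ ∣ #G`, part 2: `SL₂(𝔽_ℓ) ≤ G`

If `G ≤ GL₂(𝔽_ℓ)` acts semisimply on `𝔽_ℓ²` and `ℓ ∣ #G`, then `G` contains every matrix of
determinant one.

Mathlib only (plus `Transvec69`).
-/
import Mathlib
import Fermat.Agent.DS.Image.Transvec69

set_option autoImplicit false

namespace Fermat.Agent.DS.Image.Unipotent69

open Matrix Fermat.Agent.DS.Image.Transvec69

variable {F : Type*} [Field F]

/-- Cayley–Hamilton for `2 × 2` matrices, by hand. -/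
theorem sq_fin_two (N : Matrix (Fin 2) (Fin 2) F) :
    N * N = N.trace • N - N.det • (1 : Matrix (Fin 2) (Fin 2) F) := by
  rw [Matrix.trace_fin_two, Matrix.det_fin_two]
  apply mat_ext2 <;>
  · simp [Matrix.mul_apply, Fin.sum_univ_two]
    ring

/-- A nilpotent `2 × 2` matrix over a field squares to zero. -/
theorem sq_eq_zero_of_isNilpotent (N : Matrix (Fin 2) (Fin 2) F) (hN : IsNilpotent N) :
    N ^ 2 = 0 := by
  have htr : N.trace = 0 := (Matrix.isNilpotent_trace_of_isNilpotent hN).eq_zero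
  have hdet : N.det = 0 := by
    obtain ⟨k, hk⟩ := hN
    have : N.det ^ k = 0 := by rw [← Matrix.det_pow, hk, Matrix.det_zero]
    exact pow_eq_zero_iff (by rintro rfl; simp at this) |>.mp this
  rw [pow_two, sq_fin_two, htr, hdet, zero_smul, zero_smul, sub_zero]

/-- The `2 × 2` determinant of the matrix with columns `e`, `x`. -/
def det2 (e x : Fin 2 → F) : F := e 0 * x 1 - x 0 * e 1

theorem det2_self (e : Fin 2 → F) : det2 e e = 0 := by unfold det2; ring

theorem det2_add_smul (e w : Fin 2 → F) (c : F) : det2 e (c • e + w) = det2 e w := by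
  unfold det2; simp; ring

/-- If `e ≠ 0` and `det [e | x] = 0` then `x` is a multiple of `e`. -/
theorem exists_smul_of_det2_eq_zero {e x : Fin 2 → F} (he : e ≠ 0) (h : det2 e x = 0) :
    ∃ c : F, x = c • e := by
  unfold det2 at h
  by_cases h0 : e 0 = 0
  · have h1 : e 1 ≠ 0 := by
      intro h1; apply he; ext i; fin_cases i <;> simpa
    refine ⟨x 1 / e 1, ?_⟩
    ext i; fin_cases i
    · simp only [Fin.zero_eta, Fin.isValue, Pi.smul_apply, smul_eq_mul, h0, mul_zero]
      rw [h0, zero_mul, zero_sub, neg_eq_zero] at h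
      exact (mul_eq_zero.mp h).resolve_right h1
    · simp only [Fin.mk_one, Fin.isValue, Pi.smul_apply, smul_eq_mul]
      field_simp
  · refine ⟨x 0 / e 0, ?_⟩
    ext i; fin_cases i
    · simp only [Fin.zero_eta, Fin.isValue, Pi.smul_apply, smul_eq_mul]
      field_simp
    · simp only [Fin.mk_one, Fin.isValue, Pi.smul_apply, smul_eq_mul]
      field_simp
      linear_combination h

/-- For `e ≠ 0` there is a (standard basis) vector `v` with `det [e | v] ≠ 0`. -/
theorem exists_det2_ne_zero {e : Fin 2 → F} (he : e ≠ 0) : ∃ v : Fin 2 → F, det2 e v ≠ 0 := by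
  by_cases h0 : e 0 = 0
  · have h1 : e 1 ≠ 0 := by
      intro h1; apply he; ext i; fin_cases i <;> simpa
    exact ⟨![1, 0], by unfold det2; simpa using h1⟩
  · exact ⟨![0, 1], by unfold det2; simpa using h0⟩

section PrimeField

variable {ℓ : ℕ} [Fact ℓ.Prime]

/-- An element of `ℓ`-power-torsion in `GL₂(𝔽_ℓ)` is unipotent: `(u - 1)² = 0`. -/
theorem sub_one_sq_of_pow_char (u : GL (Fin 2) (ZMod ℓ)) (hu : u ^ ℓ = 1) :
    (u.val - 1) ^ 2 = 0 := by
  apply sq_eq_zero_of_isNilpotent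
  refine ⟨ℓ, ?_⟩
  rw [sub_pow_char_of_commute _ (Commute.one_right u.val), one_pow, ← Units.val_pow_eq_pow_val, hu,
    Units.val_one, sub_self]

/-- The raw form of `IsSemisimpleSub` of `Defs94` (definitionally equal to it). -/
def SemisimpleRaw (G : Subgroup (GL (Fin 2) (ZMod ℓ))) : Prop :=
  ∀ L : Submodule (ZMod ℓ) (Fin 2 → ZMod ℓ),
    (∀ g ∈ G, L.map (Matrix.toLin' (g : Matrix (Fin 2) (Fin 2) (ZMod ℓ))) ≤ L) →
    ∃ L' : Submodule (ZMod ℓ) (Fin 2 → ZMod ℓ),
      (∀ g ∈ G, L'.map (Matrix.toLin' (g : Matrix (Fin 2) (Fin 2) (ZMod ℓ))) ≤ L') ∧ IsCompl L L'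

/-- Semisimplicity: a nontrivial unipotent `u ∈ G` fixing `e ≠ 0` cannot have its fixed line
stable under `G`. -/
theorem exists_moving (G : Subgroup (GL (Fin 2) (ZMod ℓ))) (hss : SemisimpleRaw G)
    (u : GL (Fin 2) (ZMod ℓ)) (huG : u ∈ G) (hu1 : u ≠ 1) (hun : (u.val - 1) ^ 2 = 0)
    (e : Fin 2 → ZMod ℓ) (he0 : e ≠ 0) (he : u.val *ᵥ e = e) :
    ∃ g ∈ G, det2 e (g.val *ᵥ e) ≠ 0 := by
  by_contra hcon
  push Not at hcon
  -- the line `L = span {e}` is stable
  have hstab : ∀ g ∈ G, (Submodule.span (ZMod ℓ) {e}).map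
      (Matrix.toLin' (g : Matrix (Fin 2) (Fin 2) (ZMod ℓ))) ≤ Submodule.span (ZMod ℓ) {e} := by
    intro g hg
    rw [Submodule.map_span, Submodule.span_le]
    rintro _ ⟨x, hx, rfl⟩
    rw [Set.mem_singleton_iff] at hx
    subst hx
    rw [Matrix.toLin'_apply]
    obtain ⟨c, hc⟩ := exists_smul_of_det2_eq_zero he0 (hcon g hg)
    rw [hc]
    exact Submodule.smul_mem _ _ (Submodule.mem_span_singleton_self _)
  obtain ⟨L', hL', hcompl⟩ := hss _ hstab
  -- a vector `w ∈ L'` with `det [e | w] ≠ 0`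
  obtain ⟨v, hv⟩ := exists_det2_ne_zero he0
  have hvtop : v ∈ Submodule.span (ZMod ℓ) {e} ⊔ L' := by
    rw [hcompl.sup_eq_top]; exact Submodule.mem_top
  obtain ⟨l, hl, w, hw, hlw⟩ := Submodule.mem_sup.mp hvtop
  obtain ⟨c, rfl⟩ := Submodule.mem_span_singleton.mp hl
  have hdw : det2 e w ≠ 0 := by
    rw [← hlw, det2_add_smul] at hv; exact hv
  -- normal form of `u` in the basis `(e, w)`
  set P := colGL e w hdw with hP
  have h1 := conj_mulVec_of_fixed P u ![1, 0] e (colGL_mulVec_zero e w hdw) he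
  have hU : P⁻¹ * u * P = upper ((P⁻¹ * u * P).val 0 1) := by
    apply eq_upper_of_col _ _ _ (conj_sub_one_sq P u hun)
    · have := congrFun h1 0
      simpa [Matrix.mulVec, dotProduct, Fin.sum_univ_two] using this
    · have := congrFun h1 1
      simpa [Matrix.mulVec, dotProduct, Fin.sum_univ_two] using this
  set α := (P⁻¹ * u * P).val 0 1 with hα
  have hα0 : α ≠ 0 := by
    intro h0
    rw [h0, upper_zero] at hU
    apply hu1
    have : u = P * (P⁻¹ * u * P) * P⁻¹ := by group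
    rw [this, hU]; group
  -- `u w = α e + w`
  have huw : u.val *ᵥ w = α • e + w := by
    have hu' : u = P * upper α * P⁻¹ := by
      rw [← hU]; group
    have h2 : P⁻¹.val *ᵥ w = ![0, 1] := by
      rw [← colGL_mulVec_one e w hdw, Matrix.mulVec_mulVec, ← Units.val_mul, ← hP, inv_mul_cancel,
        Units.val_one, Matrix.one_mulVec]
    rw [hu', Units.val_mul, Units.val_mul, ← Matrix.mulVec_mulVec, ← Matrix.mulVec_mulVec, h2]
    have h3 : (upper α).val *ᵥ ![0, 1] = α • ![1, 0] + ![0, 1] := by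
      rw [upper_val]
      ext i
      fin_cases i <;> simp [Matrix.mulVec, dotProduct, Fin.sum_univ_two]
    have hP0 : P.val *ᵥ ![1, 0] = e := colGL_mulVec_zero e w hdw
    have hP1 : P.val *ᵥ ![0, 1] = w := colGL_mulVec_one e w hdw
    rw [h3, Matrix.mulVec_add, Matrix.mulVec_smul, hP0, hP1]
  -- hence `e ∈ L'`
  have huwL : u.val *ᵥ w ∈ L' := by
    apply hL' u huG
    exact ⟨w, hw, by rw [Matrix.toLin'_apply]⟩
  have heL : e ∈ L' := by
    have h4 : α • e ∈ L' := by
      have : α • e = u.val *ᵥ w - w := by rw [huw]; abel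
      rw [this]; exact L'.sub_mem huwL hw
    have := L'.smul_mem α⁻¹ h4
    rwa [smul_smul, inv_mul_cancel₀ hα0, one_smul] at this
  have : e ∈ Submodule.span (ZMod ℓ) {e} ⊓ L' :=
    ⟨Submodule.mem_span_singleton_self _, heL⟩
  rw [hcompl.inf_eq_bot] at this
  exact he0 ((Submodule.mem_bot _).mp this)

/-- **`SL₂(𝔽_ℓ) ≤ G`**: a subgroup of `GL₂(𝔽_ℓ)` acting semisimply and of order divisible by `ℓ`
contains every matrix of determinant one. -/
theorem mem_of_det_eq_one_of_semisimple (G : Subgroup (GL (Fin 2) (ZMod ℓ)))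
    (hss : SemisimpleRaw G) (hdvd : ℓ ∣ Nat.card G)
    (g : GL (Fin 2) (ZMod ℓ)) (hg : g.val.det = 1) : g ∈ G := by
  obtain ⟨u₀, hu₀⟩ := exists_prime_orderOf_dvd_card' ℓ hdvd
  set u : GL (Fin 2) (ZMod ℓ) := u₀.val with hu
  have huG : u ∈ G := u₀.2
  have hord : orderOf u = ℓ := by rw [hu, Subgroup.orderOf_coe, hu₀]
  have hpow : u ^ ℓ = 1 := by
    have := pow_orderOf_eq_one u
    rwa [hord] at this
  have hu1 : u ≠ 1 := by
    intro h
    rw [h, orderOf_one] at hord
    exact (Fact.out : ℓ.Prime).one_lt.ne hord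
  have hun := sub_one_sq_of_pow_char u hpow
  -- a fixed vector
  have hN : u.val - 1 ≠ 0 := by
    intro h
    apply hu1
    apply Units.ext
    rw [Units.val_one]
    exact sub_eq_zero.mp h
  obtain ⟨v, hv⟩ : ∃ v : Fin 2 → ZMod ℓ, (u.val - 1) *ᵥ v ≠ 0 := by
    by_contra hall
    push Not at hall
    apply hN
    ext i j
    have := congrFun (hall (Pi.single j 1)) i
    simpa using this
  set e := (u.val - 1) *ᵥ v with he
  have hfix : u.val *ᵥ e = e := by
    have : (u.val - 1) *ᵥ e = 0 := by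
      rw [he, Matrix.mulVec_mulVec, ← pow_two, hun, Matrix.zero_mulVec]
    rw [Matrix.sub_mulVec, Matrix.one_mulVec, sub_eq_zero] at this
    exact this
  obtain ⟨γ, hγG, hγ⟩ := exists_moving G hss u huG hu1 hun e hv hfix
  -- the conjugate
  have hun' : ((γ * u * γ⁻¹).val - 1) ^ 2 = 0 := by
    have := conj_sub_one_sq γ⁻¹ u hun
    rwa [inv_inv] at this
  have hfix' : (γ * u * γ⁻¹).val *ᵥ (γ.val *ᵥ e) = γ.val *ᵥ e := by
    rw [Matrix.mulVec_mulVec, ← Units.val_mul, inv_mul_cancel_right, Units.val_mul,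
      ← Matrix.mulVec_mulVec, hfix]
  have hu1' : γ * u * γ⁻¹ ≠ 1 := by
    intro h
    apply hu1
    have : u = γ⁻¹ * (γ * u * γ⁻¹) * γ := by group
    rw [this, h]; group
  exact mem_of_det_eq_one_of_unipotent_pair G u (γ * u * γ⁻¹) huG
    (G.mul_mem (G.mul_mem hγG huG) (G.inv_mem hγG)) hu1 hu1' hun hun' e (γ.val *ᵥ e) hfix hfix'
    hγ g hg

end PrimeField

end Fermat.Agent.DS.Image.Unipotent69
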