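/-
# Deligne–Serre, bounded image (Prop. 7.2), case `ℓ ∣ #G`

If `G ≤ GL₂(𝔽_ℓ)` acts semisimply, `ℓ ∣ #G`, and a subset `H ⊆ G` of density `≥ 1 - η` (`η < 1`)
has at most `M` values of `(trace, det)`, then `#G` is bounded in terms of `η` and `M` only.

Proof: `SL₂(𝔽_ℓ) ≤ G` (`Unipotent69`), so `#G ≥ ℓ²(ℓ - 1)`; each `(trace, det)`-fibre of `GL₂(𝔽_ℓ)`
has at most `2ℓ²` elements, so `(1 - η) ℓ²(ℓ - 1) ≤ 2 M ℓ²`, which bounds `ℓ`, and `#G ≤ ℓ⁴`.
-/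
import Mathlib
import Fermat.Agent.DS.Image.Defs94
import Fermat.Agent.DS.Image.Unipotent69

set_option autoImplicit false

namespace Fermat.Agent.DS.Image.CaseA69

open Matrix Fermat.Agent.DS.Image Fermat.Agent.DS.Image.Transvec69
  Fermat.Agent.DS.Image.Unipotent69

variable {ℓ : ℕ} [Fact ℓ.Prime]

/-! ### Lower bound for `#G` -/

theorem det_upper (x : ZMod ℓ) : (upper x).val.det = 1 := by
  rw [upper_val, Matrix.det_fin_two_of]; ring

theorem det_lower (x : ZMod ℓ) : (lower x).val.det = 1 := by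
  rw [lower_val, Matrix.det_fin_two_of]; ring

theorem ulu_val (x y z : ZMod ℓ) :
    (upper x * lower y * upper z).val =
      !![1 + x * y, (1 + x * y) * z + x; y, y * z + 1] := by
  rw [Units.val_mul, Units.val_mul, upper_val, lower_val, upper_val, Matrix.mul_fin_two,
    Matrix.mul_fin_two]
  apply mat_ext2 <;> simp

theorem ulu_injective :
    Function.Injective (fun t : ZMod ℓ × (ZMod ℓ)ˣ × ZMod ℓ =>
      upper t.1 * lower (t.2.1 : ZMod ℓ) * upper t.2.2) := by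
  rintro ⟨x, y, z⟩ ⟨x', y', z'⟩ h
  have hv := congrArg Units.val h
  simp only [ulu_val] at hv
  have h10 : (y : ZMod ℓ) = y' := by simpa using congrFun (congrFun hv 1) 0
  have hy : y = y' := Units.ext h10
  subst hy
  have hy0 : (y : ZMod ℓ) ≠ 0 := y.ne_zero
  have h00 : 1 + x * (y : ZMod ℓ) = 1 + x' * (y : ZMod ℓ) := by
    have := congrFun (congrFun hv 0) 0
    simpa using this
  have h11 : (y : ZMod ℓ) * z + 1 = (y : ZMod ℓ) * z' + 1 := by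
    have := congrFun (congrFun hv 1) 1
    simpa using this
  have hx : x = x' := mul_right_cancel₀ hy0 (add_left_cancel h00)
  have hz : z = z' := mul_left_cancel₀ hy0 (add_right_cancel h11)
  rw [hx, hz]

theorem card_ge_of_det_one_mem (G : Subgroup (GL (Fin 2) (ZMod ℓ)))
    (hG : ∀ g : GL (Fin 2) (ZMod ℓ), g.val.det = 1 → g ∈ G) :
    ℓ * (ℓ - 1) * ℓ ≤ Nat.card G := by
  have hmem : ∀ t : ZMod ℓ × (ZMod ℓ)ˣ × ZMod ℓ,
      upper t.1 * lower (t.2.1 : ZMod ℓ) * upper t.2.2 ∈ G := by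
    intro t
    apply hG
    rw [Units.val_mul, Units.val_mul, Matrix.det_mul, Matrix.det_mul, det_upper, det_lower,
      det_upper]
    ring
  have hinj : Function.Injective (fun t : ZMod ℓ × (ZMod ℓ)ˣ × ZMod ℓ =>
      (⟨upper t.1 * lower (t.2.1 : ZMod ℓ) * upper t.2.2, hmem t⟩ : G)) := by
    intro t t' h
    exact ulu_injective (congrArg Subtype.val h)
  have := Nat.card_le_card_of_injective _ hinj
  rw [Nat.card_prod, Nat.card_prod, Nat.card_eq_fintype_card (α := ZMod ℓ), ZMod.card,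
    Nat.card_eq_fintype_card (α := (ZMod ℓ)ˣ), ZMod.card_units_eq_totient,
    Nat.totient_prime (Fact.out : ℓ.Prime)] at this
  calc ℓ * (ℓ - 1) * ℓ = ℓ * ((ℓ - 1) * ℓ) := by ring
    _ ≤ Nat.card G := this

/-! ### Upper bound for `#G` -/

theorem card_le_pow_four (G : Subgroup (GL (Fin 2) (ZMod ℓ))) : Nat.card G ≤ ℓ ^ 4 := by
  have h1 : Nat.card G ≤ Nat.card (Matrix (Fin 2) (Fin 2) (ZMod ℓ)) :=
    Nat.card_le_card_of_injective (fun g : G => ((g : GL (Fin 2) (ZMod ℓ)) :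
      Matrix (Fin 2) (Fin 2) (ZMod ℓ))) (fun a b h => Subtype.ext (Units.ext h))
  have h2 : Nat.card (Matrix (Fin 2) (Fin 2) (ZMod ℓ)) = ℓ ^ 4 := by
    have : Nat.card (Fin 2 → Fin 2 → ZMod ℓ) = ℓ ^ 4 := by
      rw [Nat.card_eq_fintype_card, Fintype.card_fun, Fintype.card_fun, ZMod.card, Fintype.card_fin]
      ring
    exact this
  rw [h2] at h1
  exact h1

/-! ### The `(trace, det)`-fibres of `GL₂(𝔽_ℓ)` have at most `2ℓ²` elements -/

/-- The coding map: `g ↦ (g₀₀, g₀₁ or g₁₀, [g₀₁ = 0])`. -/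
def code (g : GL (Fin 2) (ZMod ℓ)) : ZMod ℓ × ZMod ℓ × Bool :=
  (g.val 0 0, if g.val 0 1 = 0 then g.val 1 0 else g.val 0 1, decide (g.val 0 1 = 0))

theorem code_injOn (a : ZMod ℓ × ZMod ℓ) :
    Set.InjOn (code (ℓ := ℓ)) {g | trDet g = a} := by
  intro g hg g' hg' h
  have hgg : trDet g = trDet g' := by
    have hg1 : trDet g = a := hg
    have hg2 : trDet g' = a := hg'
    rw [hg1, hg2]
  have htr : g.val 0 0 + g.val 1 1 = g'.val 0 0 + g'.val 1 1 := by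
    have := congrArg Prod.fst hgg
    simpa [trDet, Matrix.trace_fin_two] using this
  have hdet : g.val 0 0 * g.val 1 1 - g.val 0 1 * g.val 1 0 =
      g'.val 0 0 * g'.val 1 1 - g'.val 0 1 * g'.val 1 0 := by
    have := congrArg Prod.snd hgg
    simpa [trDet, Matrix.det_fin_two] using this
  unfold code at h
  have h00 : g.val 0 0 = g'.val 0 0 := congrArg Prod.fst h
  have hb : decide (g.val 0 1 = 0) = decide (g'.val 0 1 = 0) :=
    congrArg (fun t => t.2.2) h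
  have hx : (if g.val 0 1 = 0 then g.val 1 0 else g.val 0 1) =
      (if g'.val 0 1 = 0 then g'.val 1 0 else g'.val 0 1) := congrArg (fun t => t.2.1) h
  have h11 : g.val 1 1 = g'.val 1 1 := by
    rw [h00] at htr; exact add_left_cancel htr
  have hiff : g.val 0 1 = 0 ↔ g'.val 0 1 = 0 := by
    simpa using hb
  apply Units.ext
  by_cases hq : g.val 0 1 = 0
  · have hq' := hiff.mp hq
    rw [if_pos hq, if_pos hq'] at hx
    exact mat_ext2 h00 (by rw [hq, hq']) hx h11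
  · have hq' : g'.val 0 1 ≠ 0 := fun h => hq (hiff.mpr h)
    rw [if_neg hq, if_neg hq'] at hx
    refine mat_ext2 h00 hx ?_ h11
    rw [h00, h11, hx] at hdet
    have : g'.val 0 1 * g.val 1 0 = g'.val 0 1 * g'.val 1 0 := by
      linear_combination -hdet
    exact mul_left_cancel₀ hq' this

theorem card_fiber_le (H : Finset (GL (Fin 2) (ZMod ℓ))) (a : ZMod ℓ × ZMod ℓ) :
    (H.filter fun g => trDet g = a).card ≤ 2 * ℓ ^ 2 := by
  have h1 : (H.filter fun g => trDet g = a).card ≤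
      (Finset.univ : Finset (ZMod ℓ × ZMod ℓ × Bool)).card := by
    apply Finset.card_le_card_of_injOn (code (ℓ := ℓ)) (fun _ _ => Finset.mem_univ _)
    intro g hg g' hg' h
    apply code_injOn a _ _ h
    · exact (Finset.mem_filter.mp (Finset.mem_coe.mp hg)).2
    · exact (Finset.mem_filter.mp (Finset.mem_coe.mp hg')).2
  have h2 : (Finset.univ : Finset (ZMod ℓ × ZMod ℓ × Bool)).card = 2 * ℓ ^ 2 := by
    rw [Finset.card_univ, Fintype.card_prod, Fintype.card_prod, ZMod.card, Fintype.card_bool]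
    ring
  rw [h2] at h1
  exact h1

theorem card_le_of_image (H : Finset (GL (Fin 2) (ZMod ℓ))) :
    H.card ≤ 2 * ℓ ^ 2 * (H.image trDet).card :=
  Finset.card_le_mul_card_image H (2 * ℓ ^ 2) (fun a _ => card_fiber_le H a)

/-! ### The bound -/

/-- The bound on `ℓ` in case (A). -/
theorem prime_le (η : ℚ) (hη : η < 1) (M : ℕ) (G : Subgroup (GL (Fin 2) (ZMod ℓ)))
    (hss : IsSemisimpleSub G) (hdvd : ℓ ∣ Nat.card G)
    (H : Finset (GL (Fin 2) (ZMod ℓ)))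
    (hHd : (1 - η) * (Nat.card G : ℚ) ≤ (H.card : ℚ)) (hHM : (H.image trDet).card ≤ M) :
    ℓ ≤ ⌈2 * (M : ℚ) / (1 - η)⌉₊ + 1 := by
  have hη' : (0 : ℚ) < 1 - η := by linarith
  have hℓ : (1 : ℚ) ≤ (ℓ : ℚ) := by exact_mod_cast (Fact.out : ℓ.Prime).one_lt.le
  have hℓ0 : (0 : ℚ) < (ℓ : ℚ) ^ 2 := by positivity
  have hG := card_ge_of_det_one_mem G (mem_of_det_eq_one_of_semisimple G hss hdvd)
  have hG' : (ℓ : ℚ) ^ 2 * ((ℓ : ℚ) - 1) ≤ (Nat.card G : ℚ) := by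
    have : ((ℓ * (ℓ - 1) * ℓ : ℕ) : ℚ) ≤ (Nat.card G : ℚ) := by exact_mod_cast hG
    rw [Nat.cast_mul, Nat.cast_mul, Nat.cast_sub (Fact.out : ℓ.Prime).one_lt.le] at this
    calc (ℓ : ℚ) ^ 2 * ((ℓ : ℚ) - 1) = (ℓ : ℚ) * ((ℓ : ℚ) - (1 : ℕ)) * (ℓ : ℚ) := by
          push_cast; ring
      _ ≤ _ := this
  have hH : (H.card : ℚ) ≤ 2 * (ℓ : ℚ) ^ 2 * (M : ℚ) := by
    have h1 := card_le_of_image H
    have h2 : H.card ≤ 2 * ℓ ^ 2 * M := h1.trans (Nat.mul_le_mul_left _ hHM)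
    exact_mod_cast h2
  have hkey : (1 - η) * ((ℓ : ℚ) - 1) ≤ 2 * (M : ℚ) := by
    have h3 : (1 - η) * ((ℓ : ℚ) ^ 2 * ((ℓ : ℚ) - 1)) ≤ 2 * (ℓ : ℚ) ^ 2 * (M : ℚ) :=
      le_trans (le_trans (mul_le_mul_of_nonneg_left hG' hη'.le) hHd) hH
    have h4 : (ℓ : ℚ) ^ 2 * ((1 - η) * ((ℓ : ℚ) - 1)) ≤ (ℓ : ℚ) ^ 2 * (2 * (M : ℚ)) := by
      calc (ℓ : ℚ) ^ 2 * ((1 - η) * ((ℓ : ℚ) - 1))
          = (1 - η) * ((ℓ : ℚ) ^ 2 * ((ℓ : ℚ) - 1)) := by ring
        _ ≤ 2 * (ℓ : ℚ) ^ 2 * (M : ℚ) := h3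
        _ = (ℓ : ℚ) ^ 2 * (2 * (M : ℚ)) := by ring
    exact le_of_mul_le_mul_left h4 hℓ0
  have h5 : (ℓ : ℚ) - 1 ≤ 2 * (M : ℚ) / (1 - η) := by
    rw [le_div_iff₀ hη']
    linarith
  have h6 : (ℓ : ℚ) - 1 ≤ (⌈2 * (M : ℚ) / (1 - η)⌉₊ : ℚ) := h5.trans (Nat.le_ceil _)
  have h7 : (ℓ : ℚ) ≤ ((⌈2 * (M : ℚ) / (1 - η)⌉₊ + 1 : ℕ) : ℚ) := by
    push_cast; linarith
  exact_mod_cast h7

/-- **Case (A) of the bounded-image theorem** (interface of `#2799`). -/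
theorem caseA_card_le (η : ℚ) (hη : η < 1) (M : ℕ) :
    ∃ A : ℕ, ∀ (ℓ : ℕ) [Fact ℓ.Prime] (G : Subgroup (GL (Fin 2) (ZMod ℓ))),
      IsSemisimpleSub G → ℓ ∣ Nat.card G →
      ∀ H : Finset (GL (Fin 2) (ZMod ℓ)), (∀ h ∈ H, h ∈ G) →
        (1 - η) * (Nat.card G : ℚ) ≤ (H.card : ℚ) →
        (H.image trDet).card ≤ M → Nat.card G ≤ A := by
  refine ⟨(⌈2 * (M : ℚ) / (1 - η)⌉₊ + 1) ^ 4, ?_⟩
  intro ℓ _ G hss hdvd H _ hHd hHM
  exact (card_le_pow_four G).trans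
    (Nat.pow_le_pow_left (prime_le η hη M G hss hdvd H hHd hHM) 4)

end Fermat.Agent.DS.Image.CaseA69
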