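/-
Programme DS (S48, Deligne–Serre), chapter Image: **the bounded-image theorem
(Deligne–Serre, Prop. 7.2)**, unconditional.

For `η < 1/2` and `M` there is a bound `A` such that: for every prime `ℓ` and every semisimple
subgroup `G ≤ GL₂(𝔽_ℓ)`, if a subset `H ⊆ G` with `#H ≥ (1 - η) #G` carries at most `M`
characteristic polynomials, then `#G ≤ A`.

Case (A) (`ℓ ∣ #G`): helper69, `CaseA69`.  Case (B) (`ℓ ∤ #G`): helper94, `Assembly94`.
-/
import Fermat.Agent.DS.Image.Assembly94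
import Fermat.Agent.DS.Image.CaseA69

set_option autoImplicit false

namespace Fermat.Agent.DS.Image.BoundedImage94

open Matrix
open scoped MatrixGroups
open Fermat.Agent.DS.Image

theorem caseAStatement : CaseAStatement := fun η hη M => CaseA69.caseA_card_le η hη M

/-- **Bounded image (Deligne–Serre, Prop. 7.2).** -/
theorem boundedImage : BoundedImageStatement :=
  Assembly94.boundedImage_of_caseA caseAStatement

/-- The same, spelled out. -/
theorem exists_card_bound (η : ℚ) (hη : η < 1 / 2) (M : ℕ) :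
    ∃ A : ℕ, ∀ (ℓ : ℕ) [Fact ℓ.Prime] (G : Subgroup (GL (Fin 2) (ZMod ℓ))),
      IsSemisimpleSub G → ∀ H : Finset (GL (Fin 2) (ZMod ℓ)), (∀ h ∈ H, h ∈ G) →
        (1 - η) * (Nat.card G : ℚ) ≤ (H.card : ℚ) → (H.image trDet).card ≤ M →
        Nat.card G ≤ A :=
  boundedImage η hη M

/-- Corollary: in the situation of `exists_card_bound`, a prime `ℓ > A` does not divide `#G`,
and every element of `G` has order `≤ A`. -/
theorem exists_bound_orders (η : ℚ) (hη : η < 1 / 2) (M : ℕ) :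
    ∃ A : ℕ, ∀ (ℓ : ℕ) [Fact ℓ.Prime] (G : Subgroup (GL (Fin 2) (ZMod ℓ))),
      IsSemisimpleSub G → ∀ H : Finset (GL (Fin 2) (ZMod ℓ)), (∀ h ∈ H, h ∈ G) →
        (1 - η) * (Nat.card G : ℚ) ≤ (H.card : ℚ) → (H.image trDet).card ≤ M →
        (A < ℓ → ¬ ℓ ∣ Nat.card G) ∧ ∀ g ∈ G, orderOf g ≤ A := by
  obtain ⟨A, hA⟩ := exists_card_bound η hη M
  refine ⟨A, ?_⟩
  intro ℓ _ G hss H hH hcard hM
  have hle := hA ℓ G hss H hH hcard hM
  have hpos : 0 < Nat.card G := Nat.card_pos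
  refine ⟨fun hlt hdvd => ?_, fun g hg => ?_⟩
  · have := Nat.le_of_dvd hpos hdvd
    omega
  · have h1 : orderOf (⟨g, hg⟩ : G) ∣ Nat.card G := orderOf_dvd_natCard _
    have h2 : orderOf (⟨g, hg⟩ : G) = orderOf g := Subgroup.orderOf_mk g hg
    rw [h2] at h1
    exact le_trans (Nat.le_of_dvd hpos h1) hle

end Fermat.Agent.DS.Image.BoundedImage94
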